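/-
S48 / G1, BETTI SIDE (helper191): the period map of weight-two cusp forms for a GENERIC
subgroup `Γ ≤ SL(2, ℤ)` containing a principal congruence subgroup `Γ(M)`.

* `HasEqPrim Γ f F`        : `F` is a primitive of `f` on `ℍ`, `Γ`-equivariant up to constants,
                             with a limit at every cusp;
* `exists_primitive`       : every `f : CuspForm Γ 2` has one (if `Γ(M) ≤ Γ`);
* `periodMap Γ f`          : the period homomorphism `γ ↦ F (γ • z) - F z`;
* `periodMap_apply`, `periodMap_add`, `periodMap_smul`, `periodMapL` (linear form);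
* `periodMap_parEll`       : periods vanish on the elements with `tr² ≤ 4`;
* `periodMap_injective`    : the period map is injective.

This is the port of `S21/{PeriodMap,Injective}` (level `Γ₀(N)`) to a generic group; the
instances used by Program DS are `Γ₁(M)` and its auxiliary levels.
-/
import Mathlib
import Fermat.Prelude.Def_ModularCurve_PeriodMap
import Fermat.Agent.S21.PeriodMap
import Fermat.Agent.S21.MaxPrinciple

set_option autoImplicit false

open Filter Topology Complex CongruenceSubgroup ModularCurve ModularCurve.Period ModularForm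
open UpperHalfPlane hiding I
open scoped Real Manifold MatrixGroups

namespace Fermat.Agent.S48.Betti1

variable (Γ : Subgroup SL(2, ℤ))

/-- `F` is a primitive of `f`, equivariant under `Γ` up to additive constants, with a limit at
every cusp. -/
def HasEqPrim (f : CuspForm Γ 2) (F : ℍ → ℂ) : Prop :=
  (∀ τ : ℍ, HasDerivAt (F ∘ ofComplex) (f τ) ↑τ) ∧
    IsEquivariantPrimitive Γ F ∧
    ∀ δ : SL(2, ℤ), ∃ L : ℂ, Tendsto (fun w : ℍ => F (δ • w)) atImInfty (𝓝 L)

variable {Γ}

/-- Conjugates of `T ^ M` lie in `Γ`. -/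
theorem conj_T_zpow_mem {M : ℕ} (hM : CongruenceSubgroup.Gamma M ≤ Γ) (δ : SL(2, ℤ)) :
    δ * ModularGroup.T ^ (M : ℤ) * δ⁻¹ ∈ Γ := by
  have h1 : ModularGroup.T ^ (M : ℤ) ∈ CongruenceSubgroup.Gamma M := by
    simpa using ModularGroup_T_pow_mem_Gamma (M : ℤ) (M : ℤ) dvd_rfl
  exact hM ((Gamma_normal M).conj_mem _ h1 δ)

/-- `f ∣[2] δ` is `M`-periodic for a form of level `Γ ⊇ Γ(M)`. -/
theorem periodic_slash {M : ℕ} (hM : CongruenceSubgroup.Gamma M ≤ Γ) (f : CuspForm Γ 2) (δ : SL(2, ℤ)) :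
    Function.Periodic ((⇑f ∣[(2 : ℤ)] δ) ∘ ofComplex) (M : ℝ) := by
  have h1 := SlashInvariantFormClass.periodic_comp_ofComplex (h := (M : ℝ))
    (CuspForm.translate f (δ : GL (Fin 2) ℝ)) (k := 2) ?_
  · rw [CuspForm.coe_translate] at h1
    exact_mod_cast h1
  · rw [Subgroup.mem_strictPeriods_iff, Subgroup.mem_pointwise_smul_iff_inv_smul_mem]
    have hT' : ∀ m : ℤ, (Matrix.SpecialLinearGroup.mapGL ℝ (ModularGroup.T ^ m))
        = Matrix.GeneralLinearGroup.upperRightHom (m : ℝ) := by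
      intro m
      apply Units.ext
      simp only [Matrix.SpecialLinearGroup.mapGL_coe_matrix, Matrix.SpecialLinearGroup.map_apply_coe,
        ModularGroup.coe_T_zpow]
      ext i j
      fin_cases i <;> fin_cases j <;> simp
    have hT : (Matrix.SpecialLinearGroup.mapGL ℝ (ModularGroup.T ^ (M : ℤ)))
        = Matrix.GeneralLinearGroup.upperRightHom (M : ℝ) := by
      rw [hT' (M : ℤ), Int.cast_natCast]
    refine ⟨_, conj_T_zpow_mem hM δ, ?_⟩
    rw [map_mul, map_mul, map_inv, hT, ← ConjAct.toConjAct_inv, inv_inv, ConjAct.smul_def,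
      ConjAct.ofConjAct_toConjAct]
    rfl

/-- `f` itself is `M`-periodic. -/
theorem periodic_coe {M : ℕ} (hM : CongruenceSubgroup.Gamma M ≤ Γ) (f : CuspForm Γ 2) :
    Function.Periodic (⇑f ∘ ofComplex) (M : ℝ) := by
  have h := periodic_slash hM f 1
  have h1 : (⇑f ∣[(2 : ℤ)] (1 : SL(2, ℤ))) = ⇑f := by
    rw [SlashAction.slash_one]
  rwa [h1] at h

/-- Every weight-two cusp form of level `Γ ⊇ Γ(M)` has an equivariant primitive. -/
theorem exists_primitive [Γ.FiniteIndex] {M : ℕ} [NeZero M] (hM : CongruenceSubgroup.Gamma M ≤ Γ)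
    (f : CuspForm Γ 2) : ∃ F : ℍ → ℂ, HasEqPrim Γ f F := by
  have hMpos : (0 : ℝ) < M := by exact_mod_cast Nat.pos_of_ne_zero (NeZero.ne M)
  obtain ⟨F, hFd, -⟩ := Fermat.Agent.S21.exists_primitive_of_periodic (f := f) hMpos
    (periodic_coe hM f) (CuspFormClass.holo f) (CuspFormClass.zero_at_infty f)
  refine ⟨F, hFd, fun γ => ?_, fun δ => ?_⟩
  · have hslash : (⇑f ∣[(2 : ℤ)] (γ : SL(2, ℤ))) = ⇑f :=
      SlashInvariantFormClass.slash_action_eq f _ (Subgroup.mem_map_of_mem _ γ.2)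
    have hd : ∀ τ : ℍ, HasDerivAt ((fun w : ℍ => F ((γ : SL(2, ℤ)) • w) - F w) ∘ ofComplex) 0 ↑τ := by
      intro τ
      have h1 := Fermat.Agent.S21.hasDerivAt_comp_smul hFd (γ : SL(2, ℤ)) τ
      rw [hslash] at h1
      have h2 := h1.sub (hFd τ)
      rw [sub_self] at h2
      exact h2
    obtain ⟨c, hc⟩ := Fermat.Agent.S21.exists_const_of_hasDerivAt_zero hd
    exact ⟨c, hc⟩
  · obtain ⟨Fδ, hFδd, hFδ0⟩ := Fermat.Agent.S21.exists_primitive_of_periodic
      (f := ⇑f ∣[(2 : ℤ)] δ) hMpos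
      (periodic_slash hM f δ) ((CuspFormClass.holo f).slash 2 _)
      (CuspFormClass.zero_at_infty_slash f δ)
    have hd : ∀ τ : ℍ, HasDerivAt ((fun w : ℍ => F (δ • w) - Fδ w) ∘ ofComplex) 0 ↑τ := by
      intro τ
      have h2 := (Fermat.Agent.S21.hasDerivAt_comp_smul hFd δ τ).sub (hFδd τ)
      rw [sub_self] at h2
      exact h2
    obtain ⟨c, hc⟩ := Fermat.Agent.S21.exists_const_of_hasDerivAt_zero hd
    refine ⟨c, ?_⟩
    have h3 : (fun w : ℍ => F (δ • w)) = fun w : ℍ => Fδ w + c := by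
      funext w
      have := hc w
      rw [← this]; ring
    rw [h3]
    have := hFδ0.add_const c
    rwa [zero_add] at this

/-- Two equivariant primitives of the same form differ by a constant. -/
theorem primitive_sub_const {f : CuspForm Γ 2} {F F' : ℍ → ℂ}
    (hF : HasEqPrim Γ f F) (hF' : HasEqPrim Γ f F') : ∃ c : ℂ, ∀ w : ℍ, F w - F' w = c := by
  have hd : ∀ τ : ℍ, HasDerivAt ((fun w : ℍ => F w - F' w) ∘ ofComplex) 0 ↑τ := by
    intro τ
    have h2 := (hF.1 τ).sub (hF'.1 τ)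
    rw [sub_self] at h2
    exact h2
  exact Fermat.Agent.S21.exists_const_of_hasDerivAt_zero hd

variable (Γ)

open Classical in
/-- The period homomorphism of a weight-two cusp form of level `Γ` (zero if there is no
equivariant primitive, which never happens for `Γ ⊇ Γ(M)`). -/
noncomputable def periodMap (f : CuspForm Γ 2) : Additive Γ →+ ℂ :=
  if h : ∃ F : ℍ → ℂ, HasEqPrim Γ f F then h.choose_spec.2.1.periodHom else 0

variable {Γ}

/-- The period of `f` along `γ` is `F (γ • z) - F z` for any equivariant primitive `F` and any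
base point `z`. -/
theorem periodMap_apply {f : CuspForm Γ 2} {F : ℍ → ℂ} (hF : HasEqPrim Γ f F) (γ : Γ) (z : ℍ) :
    periodMap Γ f (Additive.ofMul γ) = F ((γ : SL(2, ℤ)) • z) - F z := by
  classical
  have h : ∃ F : ℍ → ℂ, HasEqPrim Γ f F := ⟨F, hF⟩
  have h0 : periodMap Γ f = h.choose_spec.2.1.periodHom := dif_pos h
  obtain ⟨c, hc⟩ := primitive_sub_const h.choose_spec hF
  rw [h0, IsEquivariantPrimitive.periodHom_apply, ← IsEquivariantPrimitive.sub_eq_period _ γ z]
  have e1 := hc ((γ : SL(2, ℤ)) • z)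
  have e2 := hc z
  linear_combination e1 - e2

theorem hasEqPrim_add {f g : CuspForm Γ 2} {F G : ℍ → ℂ}
    (hF : HasEqPrim Γ f F) (hG : HasEqPrim Γ g G) : HasEqPrim Γ (f + g) (F + G) := by
  refine ⟨fun τ => ?_, fun γ => ?_, fun δ => ?_⟩
  · exact (hF.1 τ).add (hG.1 τ)
  · obtain ⟨c, hc⟩ := hF.2.1 γ
    obtain ⟨d, hd⟩ := hG.2.1 γ
    refine ⟨c + d, fun z => ?_⟩
    rw [← hc z, ← hd z]
    simp only [Pi.add_apply]
    ring
  · obtain ⟨L, hL⟩ := hF.2.2 δ
    obtain ⟨L', hL'⟩ := hG.2.2 δ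
    exact ⟨L + L', hL.add hL'⟩

theorem hasEqPrim_smul (c : ℂ) {f : CuspForm Γ 2} {F : ℍ → ℂ}
    (hF : HasEqPrim Γ f F) : HasEqPrim Γ (c • f) (c • F) := by
  refine ⟨fun τ => ?_, fun γ => ?_, fun δ => ?_⟩
  · exact (hF.1 τ).const_smul c
  · obtain ⟨a, ha⟩ := hF.2.1 γ
    refine ⟨c * a, fun z => ?_⟩
    rw [← ha z]
    simp only [Pi.smul_apply, smul_eq_mul]
    ring
  · obtain ⟨L, hL⟩ := hF.2.2 δ
    exact ⟨c • L, hL.const_smul c⟩

theorem periodMap_add [Γ.FiniteIndex] {M : ℕ} [NeZero M] (hM : CongruenceSubgroup.Gamma M ≤ Γ)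
    (f g : CuspForm Γ 2) : periodMap Γ (f + g) = periodMap Γ f + periodMap Γ g := by
  obtain ⟨F, hF⟩ := exists_primitive hM f
  obtain ⟨G, hG⟩ := exists_primitive hM g
  refine AddMonoidHom.ext fun γ => ?_
  obtain ⟨γ, rfl⟩ := Additive.ofMul.surjective γ
  rw [AddMonoidHom.add_apply, periodMap_apply (hasEqPrim_add hF hG) γ UpperHalfPlane.I,
    periodMap_apply hF γ UpperHalfPlane.I, periodMap_apply hG γ UpperHalfPlane.I]
  simp only [Pi.add_apply]
  ring

theorem periodMap_smul [Γ.FiniteIndex] {M : ℕ} [NeZero M] (hM : CongruenceSubgroup.Gamma M ≤ Γ)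
    (c : ℂ) (f : CuspForm Γ 2) : periodMap Γ (c • f) = c • periodMap Γ f := by
  obtain ⟨F, hF⟩ := exists_primitive hM f
  refine AddMonoidHom.ext fun γ => ?_
  obtain ⟨γ, rfl⟩ := Additive.ofMul.surjective γ
  rw [AddMonoidHom.smul_apply, periodMap_apply (hasEqPrim_smul c hF) γ UpperHalfPlane.I,
    periodMap_apply hF γ UpperHalfPlane.I]
  simp only [Pi.smul_apply, smul_eq_mul]
  ring

/-- The period map as a linear map. -/
noncomputable def periodMapL [Γ.FiniteIndex] {M : ℕ} [NeZero M] (hM : CongruenceSubgroup.Gamma M ≤ Γ) :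
    CuspForm Γ 2 →ₗ[ℂ] (Additive Γ →+ ℂ) where
  toFun := periodMap Γ
  map_add' := periodMap_add hM
  map_smul' := fun c f => by simpa using periodMap_smul hM c f

@[simp]
theorem periodMapL_apply [Γ.FiniteIndex] {M : ℕ} [NeZero M] (hM : CongruenceSubgroup.Gamma M ≤ Γ)
    (f : CuspForm Γ 2) : periodMapL hM f = periodMap Γ f := rfl

/-! ### Vanishing on parabolic and elliptic elements -/

/-- The primitive is invariant under the elements of `Γ` with `trace ^ 2 = 4`. -/
theorem primitive_smul_eq_of_trace {f : CuspForm Γ 2} {F : ℍ → ℂ}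
    (hF : HasEqPrim Γ f F) (γ : Γ)
    (htr : (((γ : SL(2, ℤ)) : Matrix (Fin 2) (Fin 2) ℤ)).trace ^ 2 = 4) (z : ℍ) :
    F ((γ : SL(2, ℤ)) • z) = F z := by
  obtain ⟨δ, m, h⟩ := Fermat.Agent.S21.exists_conj_T (γ : SL(2, ℤ)) htr
  obtain ⟨c, hc⟩ := hF.2.1 γ
  obtain ⟨L, hL⟩ := hF.2.2 δ
  have hshift : Tendsto (fun w : ℍ => (m : ℝ) +ᵥ w) atImInfty atImInfty := by
    rw [atImInfty, tendsto_comap_iff]
    have : (UpperHalfPlane.im ∘ fun w : ℍ => (m : ℝ) +ᵥ w) = UpperHalfPlane.im := by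
      funext w
      simp [UpperHalfPlane.vadd_im]
    rw [this]
    exact tendsto_comap
  have h1 : Tendsto (fun w : ℍ => F (δ • ((m : ℝ) +ᵥ w)) - F (δ • w)) atImInfty (𝓝 (L - L)) :=
    (hL.comp hshift).sub hL
  have h2 : (fun w : ℍ => F (δ • ((m : ℝ) +ᵥ w)) - F (δ • w)) = fun _ => c := by
    funext w
    rw [← h w]
    exact hc (δ • w)
  rw [h2, sub_self] at h1
  have hc0 : c = 0 := tendsto_nhds_unique tendsto_const_nhds h1
  have := hc z
  rw [hc0] at this
  exact sub_eq_zero.mp this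

/-- An element of `SL(2, ℤ)` with `tr² < 4` has nonzero lower left entry. -/
theorem lower_left_ne_zero_of_trace_sq_lt (g : SL(2, ℤ)) (h : g.1.trace ^ 2 < 4) :
    g 1 0 ≠ 0 := by
  intro hc
  have hdet : g 0 0 * g 1 1 - g 0 1 * g 1 0 = 1 := by
    have := g.det_coe
    rwa [Matrix.det_fin_two] at this
  rw [hc, mul_zero, sub_zero] at hdet
  have htr : (g 0 0 + g 1 1) ^ 2 < 4 := by
    rwa [Matrix.trace_fin_two] at h
  rcases Int.eq_one_or_neg_one_of_mul_eq_one' hdet with ⟨h0, h1⟩ | ⟨h0, h1⟩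
  · rw [h0, h1] at htr
    norm_num at htr
  · rw [h0, h1] at htr
    norm_num at htr

/-- An element of `SL(2, ℤ)` with `tr² < 4` fixes a point of the upper half plane. -/
theorem exists_fixed_of_trace_sq_lt (g : SL(2, ℤ)) (h : g.1.trace ^ 2 < 4) :
    ∃ τ : ℍ, g • τ = τ := by
  have hc : g 1 0 ≠ 0 := lower_left_ne_zero_of_trace_sq_lt g h
  have hdet : g 0 0 * g 1 1 - g 0 1 * g 1 0 = 1 := by
    have := g.det_coe
    rwa [Matrix.det_fin_two] at this
  have htr : (g 0 0 + g 1 1) ^ 2 < 4 := by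
    rwa [Matrix.trace_fin_two] at h
  set A : ℝ := (g 0 0 : ℝ) with hA
  set B : ℝ := (g 0 1 : ℝ) with hB
  set C : ℝ := (g 1 0 : ℝ) with hC
  set D : ℝ := (g 1 1 : ℝ) with hD
  have hdetR : A * D - B * C = 1 := by
    rw [hA, hB, hC, hD]
    exact_mod_cast hdet
  have htrR : (A + D) ^ 2 < 4 := by
    rw [hA, hD]
    exact_mod_cast htr
  have hC0 : C ≠ 0 := by
    rw [hC]
    exact_mod_cast hc
  have hCabs : 0 < |C| := abs_pos.mpr hC0
  set s : ℝ := Real.sqrt (4 - (A + D) ^ 2) with hs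
  have hs2 : s ^ 2 = 4 - (A + D) ^ 2 := Real.sq_sqrt (by linarith)
  have hspos : 0 < s := Real.sqrt_pos.mpr (by linarith)
  set x : ℝ := (A - D) / (2 * C) with hx
  set y : ℝ := s / (2 * |C|) with hy
  have hypos : 0 < y := div_pos hspos (by positivity)
  have hx2 : 2 * C * x = A - D := by
    rw [hx]
    field_simp
  have hy2 : 4 * C ^ 2 * y ^ 2 = s ^ 2 := by
    rw [hy, div_pow, mul_pow, sq_abs]
    field_simp
    norm_num
  let τ : ℍ := UpperHalfPlane.mk ⟨x, y⟩ hypos
  refine ⟨τ, ?_⟩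
  apply UpperHalfPlane.ext
  rw [UpperHalfPlane.coe_specialLinearGroup_apply]
  have hτ : (τ : ℂ) = ⟨x, y⟩ := rfl
  have hden : ((algebraMap ℤ ℝ (g 1 0) : ℝ) : ℂ) * (τ : ℂ) + ((algebraMap ℤ ℝ (g 1 1) : ℝ) : ℂ)
      ≠ 0 := by
    intro h0
    have him := congrArg Complex.im h0
    rw [hτ] at him
    simp only [Complex.add_im, Complex.mul_im, Complex.ofReal_re, Complex.ofReal_im, zero_mul,
      add_zero, Complex.zero_im] at him
    have : C * y = 0 := him
    rcases mul_eq_zero.mp this with h1 | h1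
    · exact hC0 h1
    · exact hypos.ne' h1
  rw [div_eq_iff hden, hτ]
  have hre : A * x + B = x * (C * x + D) - y * (C * y) := by
    have h1 : C * (A * x + B - (x * (C * x + D) - y * (C * y))) * 4 = 0 := by
      have e1 : C * (A * x + B - (x * (C * x + D) - y * (C * y))) * 4
          = 2 * (A - D) * (2 * C * x) + 4 * B * C - (2 * C * x) ^ 2 + 4 * C ^ 2 * y ^ 2 := by
        ring
      rw [e1, hx2, hy2, hs2]
      linear_combination (-4 : ℝ) * hdetR
    have h2 : A * x + B - (x * (C * x + D) - y * (C * y)) = 0 := by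
      rcases mul_eq_zero.mp h1 with h3 | h3
      · rcases mul_eq_zero.mp h3 with h4 | h4
        · exact absurd h4 hC0
        · exact h4
      · norm_num at h3
    linarith
  have him : A * y = x * (C * y) + y * (C * x + D) := by
    have e1 : x * (C * y) + y * (C * x + D) = (2 * C * x) * y + D * y := by ring
    rw [e1, hx2]
    ring
  apply Complex.ext
  · simp only [Complex.add_re, Complex.mul_re, Complex.ofReal_re, Complex.ofReal_im, zero_mul,
      sub_zero, Complex.add_im, Complex.mul_im, add_zero]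
    exact hre
  · simp only [Complex.add_re, Complex.mul_re, Complex.ofReal_re, Complex.ofReal_im, zero_mul,
      sub_zero, Complex.add_im, Complex.mul_im, add_zero]
    exact him

/-- Periods vanish on the elements of `Γ` with `tr² ≤ 4` (`±1`, elliptic, parabolic). -/
theorem periodMap_parEll [Γ.FiniteIndex] {M : ℕ} [NeZero M] (hM : CongruenceSubgroup.Gamma M ≤ Γ)
    (f : CuspForm Γ 2) (γ : Γ)
    (htr : (((γ : SL(2, ℤ)) : Matrix (Fin 2) (Fin 2) ℤ)).trace ^ 2 ≤ 4) :
    periodMap Γ f (Additive.ofMul γ) = 0 := by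
  obtain ⟨F, hF⟩ := exists_primitive hM f
  rcases lt_or_eq_of_le htr with hlt | heq
  · obtain ⟨τ, hτ⟩ := exists_fixed_of_trace_sq_lt (γ : SL(2, ℤ)) hlt
    rw [periodMap_apply hF γ τ, hτ, sub_self]
  · rw [periodMap_apply hF γ UpperHalfPlane.I, primitive_smul_eq_of_trace hF γ heq, sub_self]

/-! ### Injectivity -/

/-- `F ∘ δ` is `M`-periodic for every `δ ∈ SL(2, ℤ)`. -/
theorem primitive_smul_vadd {M : ℕ} (hM : CongruenceSubgroup.Gamma M ≤ Γ) {f : CuspForm Γ 2} {F : ℍ → ℂ}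
    (hF : HasEqPrim Γ f F) (δ : SL(2, ℤ)) (w : ℍ) :
    F (δ • ((M : ℝ) +ᵥ w)) = F (δ • w) := by
  have htr : ((δ * ModularGroup.T ^ (M : ℤ) * δ⁻¹ : SL(2, ℤ)) : Matrix (Fin 2) (Fin 2) ℤ).trace ^ 2
      = 4 := by
    rw [Matrix.SpecialLinearGroup.coe_mul, Matrix.SpecialLinearGroup.coe_mul,
      Matrix.trace_mul_cycle, ← Matrix.SpecialLinearGroup.coe_mul, inv_mul_cancel,
      Matrix.SpecialLinearGroup.coe_one, one_mul, ModularGroup.coe_T_zpow, Matrix.trace_fin_two_of]
    norm_num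
  have h1 := primitive_smul_eq_of_trace hF ⟨_, conj_T_zpow_mem hM δ⟩ htr (δ • w)
  rw [← h1]
  congr 1
  have h2 : (M : ℝ) +ᵥ w = ModularGroup.T ^ (M : ℤ) • w := by
    rw [modular_T_zpow_smul]; simp
  rw [h2, ← mul_smul, ← mul_smul]
  congr 1
  group

/-- A form all of whose periods have vanishing real part (for instance: all of whose periods
vanish) is zero. -/
theorem eq_zero_of_period_re [Γ.FiniteIndex] {M : ℕ} [NeZero M] (hM : CongruenceSubgroup.Gamma M ≤ Γ)
    {f : CuspForm Γ 2} {F : ℍ → ℂ} (hF : HasEqPrim Γ f F)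
    (hre : ∀ (γ : Γ) (z : ℍ), (F ((γ : SL(2, ℤ)) • z) - F z).re = 0) : f = 0 := by
  have hMpos : (0 : ℝ) < (M : ℝ) := by exact_mod_cast Nat.pos_of_ne_zero (NeZero.ne M)
  have hholo : MDiff F := fun τ => mdifferentiableAt_iff.mpr (hF.1 τ).differentiableAt
  have hgdiff : DifferentiableOn ℂ (F ∘ ofComplex) {z : ℂ | 0 < z.im} :=
    UpperHalfPlane.mdifferentiable_iff.mp hholo
  have hE : MDiff (fun z : ℍ => Complex.exp (F z)) :=
    UpperHalfPlane.mdifferentiable_iff.mpr hgdiff.cexp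
  have hexp : ∀ z : ℍ, Complex.exp (F z) = Complex.exp (F UpperHalfPlane.I) := by
    refine Fermat.Agent.S21.MaxPrinciple.const_of_norm_invariant (Γ := Γ) hMpos hE ?_ ?_ ?_
    · intro γ hγ z
      have := hre ⟨γ, hγ⟩ z
      rw [Complex.sub_re, sub_eq_zero] at this
      simp only [Complex.norm_exp]
      rw [this]
    · intro δ w
      rw [primitive_smul_vadd hM hF δ w]
    · intro δ
      obtain ⟨L, hL⟩ := hF.2.2 δ
      have := (Complex.continuous_exp.tendsto L).comp hL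
      exact this.isBigO_one ℝ
  ext τ
  have h1 : HasDerivAt (fun y => Complex.exp ((F ∘ ofComplex) y))
      (Complex.exp ((F ∘ ofComplex) τ) * f τ) τ := (hF.1 τ).cexp
  have h2 : HasDerivAt (fun y => Complex.exp ((F ∘ ofComplex) y)) 0 τ := by
    refine (hasDerivAt_const (τ : ℂ) (Complex.exp (F UpperHalfPlane.I))).congr_of_eventuallyEq ?_
    filter_upwards [isOpen_upperHalfPlaneSet.mem_nhds τ.im_pos] with y hy
    simp only [Function.comp_apply]
    exact hexp _
  have h3 := h1.unique h2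
  have h4 : f τ = 0 := by
    rcases mul_eq_zero.mp h3 with h5 | h5
    · exact absurd h5 (Complex.exp_ne_zero _)
    · exact h5
  simpa using h4

/-- The period map is injective. -/
theorem periodMap_eq_zero [Γ.FiniteIndex] {M : ℕ} [NeZero M] (hM : CongruenceSubgroup.Gamma M ≤ Γ)
    {f : CuspForm Γ 2} (h : periodMap Γ f = 0) : f = 0 := by
  obtain ⟨F, hF⟩ := exists_primitive hM f
  refine eq_zero_of_period_re hM hF (fun γ z => ?_)
  rw [← periodMap_apply hF γ z, h]
  simp

theorem periodMapL_injective [Γ.FiniteIndex] {M : ℕ} [NeZero M] (hM : CongruenceSubgroup.Gamma M ≤ Γ) :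
    Function.Injective (periodMapL hM) := by
  rw [injective_iff_map_eq_zero]
  intro f hf
  exact periodMap_eq_zero hM hf

end Fermat.Agent.S48.Betti1
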