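/-
S48 / G1, BETTI SIDE (helper191): the group `A_Γ = Γ^ab / ⟨parabolic, elliptic⟩` for a GENERIC
subgroup `Γ ≤ SL(2, ℤ)` (same shape as `S30.Producer.AN` for `Γ₀(N)`), and the period map
of weight-two cusp forms as an injective linear map into `Hom(A_Γ, ℂ)`.

* `parEll Γ`            : the elements of `Γ` with `tr² ≤ 4`;
* `AG Γ`, `proj Γ`      : `Γ^ab / ⟨parEll⟩` (additive) and the projection;
* `lift`, `hom_ext`     : universal property;
* `fg_AG`               : finitely generated (for `Γ` of finite index);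
* `periodAG hM`         : `CuspForm Γ 2 →ₗ[ℂ] (AG Γ →+ ℂ)`, `periodAG_proj`, `periodAG_injective`;
* `periodFun hM`        : the same with values in functions `AG Γ → ℂ` (the `occ` shape of the
                          producer), `periodFun_add`, `periodFun_injective`;
* `A1 M`, `gamma_le_gamma1` : the instance `Γ = Γ₁(M)`.
-/
import Mathlib
import Fermat.Agent.S48.Betti1.PeriodGen
import Fermat.Agent.S22.GammaFG

set_option autoImplicit false

noncomputable section

open scoped MatrixGroups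
open CongruenceSubgroup

namespace Fermat.Agent.S48.Betti1

variable (Γ : Subgroup SL(2, ℤ))

/-- The parabolic and elliptic elements (and `±1`) of `Γ`: those with `tr² ≤ 4`. -/
def parEll : Set Γ :=
  {γ | ((γ : SL(2, ℤ)) : Matrix (Fin 2) (Fin 2) ℤ).trace ^ 2 ≤ 4}

variable {Γ} in
theorem mem_parEll {γ : Γ} :
    γ ∈ parEll Γ ↔ ((γ : SL(2, ℤ)) : Matrix (Fin 2) (Fin 2) ℤ).trace ^ 2 ≤ 4 := Iff.rfl

/-- `Γ / ⟨⟨parEll⟩⟩`. -/
abbrev QG : Type := Γ ⧸ Subgroup.normalClosure (parEll Γ)

/-- `A_Γ = Γ^ab / ⟨parabolic, elliptic⟩`, written additively. -/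
abbrev AG : Type := Additive (Abelianization (QG Γ))

/-- The projection `Γ → A_Γ` (multiplicative form). -/
def projHom : Γ →* Abelianization (QG Γ) :=
  Abelianization.of.comp (QuotientGroup.mk' (Subgroup.normalClosure (parEll Γ)))

/-- The projection `Γ → A_Γ`. -/
def proj : Additive Γ →+ AG Γ := MonoidHom.toAdditive (projHom Γ)

theorem projHom_surjective : Function.Surjective (projHom Γ) := by
  intro x
  obtain ⟨y, rfl⟩ := QuotientGroup.mk_surjective (s := commutator (QG Γ)) x
  obtain ⟨g, rfl⟩ := QuotientGroup.mk'_surjective (Subgroup.normalClosure (parEll Γ)) y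
  exact ⟨g, rfl⟩

theorem proj_surjective : Function.Surjective (proj Γ) := fun x => by
  obtain ⟨g, hg⟩ := projHom_surjective Γ (Additive.toMul x)
  exact ⟨Additive.ofMul g, congrArg Additive.ofMul hg⟩

variable {Γ}

theorem proj_parEll {γ : Γ} (hγ : γ ∈ parEll Γ) : proj Γ (Additive.ofMul γ) = 0 := by
  have h : (QuotientGroup.mk' (Subgroup.normalClosure (parEll Γ))) γ = 1 :=
    (QuotientGroup.eq_one_iff γ).mpr (Subgroup.subset_normalClosure hγ)
  show Additive.ofMul (Abelianization.of ((QuotientGroup.mk' _) γ)) = 0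
  rw [h, map_one]
  rfl

/-- Universal property of `A_Γ`: a homomorphism `Γ → B` killing `parEll` factors through
`A_Γ`. -/
def lift {B : Type*} [AddCommGroup B] (φ : Additive Γ →+ B)
    (h : ∀ γ ∈ parEll Γ, φ (Additive.ofMul γ) = 0) : AG Γ →+ B :=
  MonoidHom.toAdditiveLeft
    (Abelianization.lift
      (QuotientGroup.lift (Subgroup.normalClosure (parEll Γ))
        (AddMonoidHom.toMultiplicativeRight φ)
        (Subgroup.normalClosure_le_normal fun γ hγ => by
          rw [SetLike.mem_coe, MonoidHom.mem_ker]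
          exact congrArg Multiplicative.ofAdd (h γ hγ))))

@[simp]
theorem lift_proj {B : Type*} [AddCommGroup B] (φ : Additive Γ →+ B)
    (h : ∀ γ ∈ parEll Γ, φ (Additive.ofMul γ) = 0) (γ : Additive Γ) :
    lift φ h (proj Γ γ) = φ γ := rfl

theorem lift_comp_proj {B : Type*} [AddCommGroup B] (φ : Additive Γ →+ B)
    (h : ∀ γ ∈ parEll Γ, φ (Additive.ofMul γ) = 0) : (lift φ h).comp (proj Γ) = φ :=
  AddMonoidHom.ext fun γ => lift_proj φ h γ

/-- Homomorphisms out of `A_Γ` are determined by their pull-back to `Γ`. -/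
theorem hom_ext {B : Type*} [AddCommGroup B] {c d : AG Γ →+ B}
    (h : ∀ γ : Γ, c (proj Γ (Additive.ofMul γ)) = d (proj Γ (Additive.ofMul γ))) : c = d := by
  refine AddMonoidHom.ext fun x => ?_
  obtain ⟨γ, rfl⟩ := proj_surjective Γ x
  exact h (Additive.toMul γ)

variable (Γ) in
theorem fg_AG [Γ.FiniteIndex] : AddGroup.FG (AG Γ) := by
  have h0 : Group.FG SL(2, ℤ) := Fermat.Agent.S22.GammaFG.sl2z_fg
  have : Group.FG Γ := Subgroup.fg_of_index_ne_zero _
  exact GroupFG.iff_add_fg.mp (Group.fg_of_surjective (projHom_surjective Γ))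

/-! ### The period map into `Hom(A_Γ, ℂ)` -/

/-- The period homomorphism of a cusp form, as a homomorphism on `A_Γ`. -/
def periodHomAG [Γ.FiniteIndex] {M : ℕ} [NeZero M] (hM : CongruenceSubgroup.Gamma M ≤ Γ)
    (f : CuspForm Γ 2) : AG Γ →+ ℂ :=
  lift (periodMap Γ f) (fun γ hγ => periodMap_parEll hM f γ hγ)

@[simp]
theorem periodHomAG_proj [Γ.FiniteIndex] {M : ℕ} [NeZero M] (hM : CongruenceSubgroup.Gamma M ≤ Γ)
    (f : CuspForm Γ 2) (γ : Additive Γ) :
    periodHomAG hM f (proj Γ γ) = periodMap Γ f γ := rfl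

/-- The period map `S₂(Γ) → Hom(A_Γ, ℂ)`, linear. -/
def periodAG [Γ.FiniteIndex] {M : ℕ} [NeZero M] (hM : CongruenceSubgroup.Gamma M ≤ Γ) :
    CuspForm Γ 2 →ₗ[ℂ] (AG Γ →+ ℂ) where
  toFun := periodHomAG hM
  map_add' f g := hom_ext fun γ => by
    rw [AddMonoidHom.add_apply, periodHomAG_proj, periodHomAG_proj, periodHomAG_proj,
      periodMap_add hM]
    rfl
  map_smul' c f := hom_ext fun γ => by
    rw [RingHom.id_apply, AddMonoidHom.smul_apply, periodHomAG_proj, periodHomAG_proj,
      periodMap_smul hM]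
    rfl

@[simp]
theorem periodAG_proj [Γ.FiniteIndex] {M : ℕ} [NeZero M] (hM : CongruenceSubgroup.Gamma M ≤ Γ)
    (f : CuspForm Γ 2) (γ : Additive Γ) :
    periodAG hM f (proj Γ γ) = periodMap Γ f γ := rfl

/-- Formula for the period map on `A_Γ`: `F (γ • z) - F z` for any equivariant primitive. -/
theorem periodAG_proj_eq [Γ.FiniteIndex] {M : ℕ} [NeZero M] (hM : CongruenceSubgroup.Gamma M ≤ Γ)
    {f : CuspForm Γ 2} {F : UpperHalfPlane → ℂ} (hF : HasEqPrim Γ f F) (γ : Γ)
    (z : UpperHalfPlane) :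
    periodAG hM f (proj Γ (Additive.ofMul γ)) = F ((γ : SL(2, ℤ)) • z) - F z := by
  rw [periodAG_proj, periodMap_apply hF γ z]

theorem periodAG_injective [Γ.FiniteIndex] {M : ℕ} [NeZero M]
    (hM : CongruenceSubgroup.Gamma M ≤ Γ) : Function.Injective (periodAG hM) := by
  rw [injective_iff_map_eq_zero]
  intro f hf
  refine periodMap_eq_zero hM (AddMonoidHom.ext fun γ => ?_)
  have := congrArg (fun c : AG Γ →+ ℂ => c (proj Γ γ)) hf
  simpa using this

/-- The period map with values in functions `A_Γ → ℂ` (the `occ` shape of the producer). -/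
def periodFun [Γ.FiniteIndex] {M : ℕ} [NeZero M] (hM : CongruenceSubgroup.Gamma M ≤ Γ) :
    CuspForm Γ 2 →ₗ[ℂ] (AG Γ → ℂ) where
  toFun f := fun a => periodAG hM f a
  map_add' f g := by
    funext a
    rw [map_add]
    rfl
  map_smul' c f := by
    funext a
    rw [map_smul]
    rfl

@[simp]
theorem periodFun_apply [Γ.FiniteIndex] {M : ℕ} [NeZero M] (hM : CongruenceSubgroup.Gamma M ≤ Γ)
    (f : CuspForm Γ 2) (a : AG Γ) : periodFun hM f a = periodAG hM f a := rfl

theorem periodFun_add [Γ.FiniteIndex] {M : ℕ} [NeZero M] (hM : CongruenceSubgroup.Gamma M ≤ Γ)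
    (f : CuspForm Γ 2) (a b : AG Γ) :
    periodFun hM f (a + b) = periodFun hM f a + periodFun hM f b := by
  simp only [periodFun_apply, map_add]

theorem periodFun_injective [Γ.FiniteIndex] {M : ℕ} [NeZero M]
    (hM : CongruenceSubgroup.Gamma M ≤ Γ) : Function.Injective (periodFun hM) := by
  intro f g h
  refine periodAG_injective hM (AddMonoidHom.ext fun a => ?_)
  exact congrFun h a

/-! ### The instance `Γ₁(M)` -/

theorem gamma_le_gamma1 (M : ℕ) : CongruenceSubgroup.Gamma M ≤ Gamma1 M := by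
  intro A hA
  simp_all [Gamma1_mem, Gamma_mem]

/-- `A₁(M) = Γ₁(M)^ab / ⟨parabolic, elliptic⟩`. -/
abbrev A1 (M : ℕ) : Type := AG (Gamma1 M)

theorem fg_A1 (M : ℕ) [NeZero M] : AddGroup.FG (A1 M) := fg_AG (Gamma1 M)

/-- The period map of level `Γ₁(M)`: an injective linear map `S₂(Γ₁(M)) → (A₁(M) → ℂ)`,
additive in the second variable. -/
def period1 (M : ℕ) [NeZero M] : CuspForm (Gamma1 M) 2 →ₗ[ℂ] (A1 M → ℂ) :=
  periodFun (gamma_le_gamma1 M)

theorem period1_add (M : ℕ) [NeZero M] (f : CuspForm (Gamma1 M) 2) (a b : A1 M) :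
    period1 M f (a + b) = period1 M f a + period1 M f b :=
  periodFun_add _ f a b

theorem period1_injective (M : ℕ) [NeZero M] : Function.Injective (period1 M) :=
  periodFun_injective _

end Fermat.Agent.S48.Betti1
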