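/-
S48 / G1, BETTI SIDE (helper191): GENERIC Hecke correspondences ("transfers") on
`A_Γ = Γ^ab / ⟨parabolic, elliptic⟩` and the equivariance of the period map.

`CosetData Γ` = a finite index set `X`, representatives `rep x ∈ GL₂(ℝ)` of positive
determinant, a right action `perm` of `Γ` on `X` and a `Γ`-valued cocycle `coc` with
`rep x * γ = coc γ x * rep (perm γ x)`.   (Instances: `T_ℓ` on `Γ₁(M)`, the diamond operators,
`T_ℓ` on auxiliary levels.)   For such data:

* `tHom D φ`            : the transfer `γ ↦ ∑ₓ φ (coc γ x)` of a homomorphism `φ : Γ → B`;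
* `tHom_parEll`         : it preserves "vanishing on `tr² ≤ 4`" (cycle argument);
* `D.tau : AG Γ →+ AG Γ`, `tau_proj`, `comp_tau_comp_proj`;
* `heckeSum_smul`, `heckeProd_smul` : the additive / multiplicative multiplier lemmas;
* `periodMap_transfer`, `periodAG_transfer`, `periodFun_transfer` : if `g = ∑ₓ f ∣[2] rep x`
  (as functions) then the periods of `g` are the transfer of the periods of `f`.
-/
import Mathlib
import Fermat.Agent.S48.Betti1.AG
import Fermat.Agent.S30.BettiHecke.CycleSum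

set_option autoImplicit false

noncomputable section

open scoped MatrixGroups ModularForm
open Matrix.SpecialLinearGroup UpperHalfPlane ModularCurve ModularCurve.Period

namespace Fermat.Agent.S48.Betti1

/-- Coset data of a Hecke correspondence on `Γ`. -/
structure CosetData (Γ : Subgroup SL(2, ℤ)) where
  /-- index set of the left cosets -/
  X : Type
  [fintypeX : Fintype X]
  [decEqX : DecidableEq X]
  /-- coset representatives -/
  rep : X → GL (Fin 2) ℝ
  rep_det : ∀ x, 0 < (rep x).val.det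
  /-- right action of `Γ` on the index set -/
  perm : Γ → Equiv.Perm X
  /-- the cocycle -/
  coc : Γ → X → Γ
  spec : ∀ (γ : Γ) (x : X),
    rep x * mapGL ℝ (γ : SL(2, ℤ)) = mapGL ℝ (coc γ x : SL(2, ℤ)) * rep (perm γ x)
  perm_mul : ∀ (γ δ : Γ) (x : X), perm (γ * δ) x = perm δ (perm γ x)
  coc_mul : ∀ (γ δ : Γ) (x : X), coc (γ * δ) x = coc γ x * coc δ (perm γ x)

attribute [instance] CosetData.fintypeX CosetData.decEqX

namespace CosetData

variable {Γ : Subgroup SL(2, ℤ)} (D : CosetData Γ)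

theorem perm_one : D.perm 1 = 1 := by
  ext x
  have h := D.perm_mul 1 1 x
  rw [mul_one] at h
  exact ((D.perm 1).injective h).symm

theorem coc_one (x : D.X) : D.coc 1 x = 1 := by
  have h := D.coc_mul 1 1 x
  rw [mul_one, D.perm_one, Equiv.Perm.one_apply] at h
  exact (left_eq_mul.mp h)

theorem perm_pow (γ : Γ) (k : ℕ) (x : D.X) : D.perm (γ ^ k) x = ((D.perm γ) ^ k) x := by
  induction k with
  | zero => simp [D.perm_one]
  | succ k ih => rw [pow_succ, D.perm_mul, ih, pow_succ', Equiv.Perm.mul_apply]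

/-! ### The transfer -/

/-- The transfer of a homomorphism `φ : Γ → B`. -/
def tHom {B : Type*} [AddCommGroup B] (φ : Additive Γ →+ B) : Additive Γ →+ B where
  toFun γ := ∑ x : D.X, φ (Additive.ofMul (D.coc (Additive.toMul γ) x))
  map_zero' := by
    simp [D.coc_one]
  map_add' γ δ := by
    simp only [toMul_add, D.coc_mul, ofMul_mul, map_add, Finset.sum_add_distrib]
    congr 1
    exact Equiv.sum_comp (D.perm (Additive.toMul γ))
      (fun y => φ (Additive.ofMul (D.coc (Additive.toMul δ) y)))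

theorem tHom_apply {B : Type*} [AddCommGroup B] (φ : Additive Γ →+ B) (γ : Γ) :
    D.tHom φ (Additive.ofMul γ) = ∑ x : D.X, φ (Additive.ofMul (D.coc γ x)) := rfl

/-- naturality in the coefficient group. -/
theorem tHom_comp {B C : Type*} [AddCommGroup B] [AddCommGroup C] (f : B →+ C)
    (φ : Additive Γ →+ B) : D.tHom (f.comp φ) = f.comp (D.tHom φ) := by
  ext γ
  show ∑ x : D.X, f (φ _) = f (∑ x : D.X, φ _)
  rw [map_sum]

theorem tHom_add {B : Type*} [AddCommGroup B] (φ ψ : Additive Γ →+ B) :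
    D.tHom (φ + ψ) = D.tHom φ + D.tHom ψ := by
  ext γ
  simp [tHom, Finset.sum_add_distrib]

/-- The cocycle along a cycle. -/
theorem map_coc_pow {B : Type*} [AddCommGroup B] (φ : Additive Γ →+ B) (γ : Γ) (k : ℕ)
    (x : D.X) :
    φ (Additive.ofMul (D.coc (γ ^ k) x)) =
      ∑ i ∈ Finset.range k, φ (Additive.ofMul (D.coc γ (((D.perm γ) ^ i) x))) := by
  induction k with
  | zero => simp [D.coc_one]
  | succ k ih =>
    rw [pow_succ, D.coc_mul, ofMul_mul, map_add, ih, Finset.sum_range_succ]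
    congr 3
    rw [D.perm_pow]

theorem mapGL_val' (a : SL(2, ℤ)) :
    ((mapGL ℝ a : GL (Fin 2) ℝ) : Matrix (Fin 2) (Fin 2) ℝ) =
      (a : Matrix (Fin 2) (Fin 2) ℤ).map (Int.cast : ℤ → ℝ) := by
  ext i j
  simp

/-- At a fixed point of `perm δ`, the cocycle value is conjugate to `δ`: same trace. -/
theorem trace_coc_of_fixed (δ : Γ) (x : D.X) (hx : D.perm δ x = x) :
    ((D.coc δ x : SL(2, ℤ)) : Matrix (Fin 2) (Fin 2) ℤ).trace =
      ((δ : SL(2, ℤ)) : Matrix (Fin 2) (Fin 2) ℤ).trace := by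
  have h := D.spec δ x
  rw [hx] at h
  have h2 : mapGL ℝ (D.coc δ x : SL(2, ℤ)) =
      D.rep x * mapGL ℝ (δ : SL(2, ℤ)) * (D.rep x)⁻¹ := by
    rw [h, mul_assoc, mul_inv_cancel, mul_one]
  have h3 := congrArg (fun g : GL (Fin 2) ℝ => (g : Matrix (Fin 2) (Fin 2) ℝ).trace) h2
  simp only [Matrix.GeneralLinearGroup.coe_mul] at h3
  rw [Matrix.trace_units_conj, mapGL_val', mapGL_val'] at h3
  simp only [Matrix.trace_fin_two, Matrix.map_apply] at h3 ⊢
  exact_mod_cast h3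

/-- **The transfer kills parabolic and elliptic elements** (cycle argument). -/
theorem tHom_parEll {B : Type*} [AddCommGroup B] (φ : Additive Γ →+ B)
    (hφ : ∀ g ∈ parEll Γ, φ (Additive.ofMul g) = 0) (γ : Γ) (hγ : γ ∈ parEll Γ) :
    D.tHom φ (Additive.ofMul γ) = 0 := by
  classical
  rw [tHom_apply]
  apply Fermat.Agent.S30.BettiHecke.CycleSum.sum_eq_zero_of_cycles (D.perm γ)
  intro x k _ hfix _
  rw [← D.map_coc_pow φ γ k x]
  apply hφ
  have hfix' : D.perm (γ ^ k) x = x := by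
    rw [D.perm_pow]
    exact hfix
  rw [mem_parEll, D.trace_coc_of_fixed (γ ^ k) x hfix', Subgroup.coe_pow,
    Matrix.SpecialLinearGroup.coe_pow]
  exact Fermat.Agent.S30.BettiHecke.CycleSum.trace_pow_sq_le _ (γ : SL(2, ℤ)).det_coe
    (mem_parEll.mp hγ) k

/-- The Hecke correspondence on `A_Γ`: `τ [γ] = ∑ₓ [coc γ x]`. -/
def tau : AG Γ →+ AG Γ :=
  lift (D.tHom (proj Γ)) (D.tHom_parEll (proj Γ) (fun _ hg => proj_parEll hg))

@[simp]
theorem tau_proj (γ : Additive Γ) : D.tau (proj Γ γ) = D.tHom (proj Γ) γ := rfl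

theorem tau_proj_apply (γ : Γ) :
    D.tau (proj Γ (Additive.ofMul γ)) = ∑ x : D.X, proj Γ (Additive.ofMul (D.coc γ x)) := rfl

/-- Naturality of the transfer: `(c ∘ τ) ∘ proj = T (c ∘ proj)`. -/
theorem comp_tau_comp_proj {B : Type*} [AddCommGroup B] (c : AG Γ →+ B) :
    (c.comp D.tau).comp (proj Γ) = D.tHom (c.comp (proj Γ)) := by
  rw [D.tHom_comp]
  rfl

theorem comp_tau_proj {B : Type*} [AddCommGroup B] (c : AG Γ →+ B) (γ : Γ) :
    c (D.tau (proj Γ (Additive.ofMul γ))) =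
      ∑ x : D.X, c (proj Γ (Additive.ofMul (D.coc γ x))) := by
  rw [D.tau_proj_apply, map_sum]

/-! ### Multiplier lemmas -/

/-- The additive Hecke operator on functions on `ℍ`. -/
def heckeSum {B : Type*} [AddCommMonoid B] (F : ℍ → B) (τ : ℍ) : B :=
  ∑ x : D.X, F (D.rep x • τ)

/-- The multiplicative Hecke operator on functions on `ℍ`. -/
def heckeProd (h : ℍ → ℂ) (τ : ℍ) : ℂ :=
  ∏ x : D.X, h (D.rep x • τ)

theorem rep_smul_smul (γ : Γ) (x : D.X) (τ : ℍ) :
    D.rep x • ((γ : SL(2, ℤ)) • τ) =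
      (D.coc γ x : SL(2, ℤ)) • (D.rep (D.perm γ x) • τ) := by
  rw [ModularGroup.sl_moeb, ModularGroup.sl_moeb, ← mul_smul, ← mul_smul]
  exact congrArg (· • τ) (D.spec γ x)

/-- MULTIPLIER LEMMA (additive form). -/
theorem heckeSum_smul {B : Type*} [AddCommGroup B] (F : ℍ → B) (φ : Γ → B)
    (hφ : ∀ (γ : Γ) (τ : ℍ), F ((γ : SL(2, ℤ)) • τ) = F τ + φ γ) (γ : Γ) (τ : ℍ) :
    D.heckeSum F ((γ : SL(2, ℤ)) • τ) = D.heckeSum F τ + ∑ x : D.X, φ (D.coc γ x) := by
  unfold heckeSum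
  have h1 : ∀ x : D.X, F (D.rep x • ((γ : SL(2, ℤ)) • τ)) =
      F (D.rep (D.perm γ x) • τ) + φ (D.coc γ x) := fun x => by
    rw [D.rep_smul_smul γ x τ, hφ]
  rw [Finset.sum_congr rfl (fun x _ => h1 x), Finset.sum_add_distrib]
  congr 1
  exact Equiv.sum_comp (D.perm γ) (fun y => F (D.rep y • τ))

/-- MULTIPLIER LEMMA (multiplicative form). -/
theorem heckeProd_smul (h : ℍ → ℂ) (φ : Γ → ℂ)
    (hφ : ∀ (γ : Γ) (τ : ℍ), h ((γ : SL(2, ℤ)) • τ) = φ γ * h τ) (γ : Γ) (τ : ℍ) :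
    D.heckeProd h ((γ : SL(2, ℤ)) • τ) = (∏ x : D.X, φ (D.coc γ x)) * D.heckeProd h τ := by
  unfold heckeProd
  have h1 : ∀ x : D.X, h (D.rep x • ((γ : SL(2, ℤ)) • τ)) =
      φ (D.coc γ x) * h (D.rep (D.perm γ x) • τ) := fun x => by
    rw [D.rep_smul_smul γ x τ, hφ]
  rw [Finset.prod_congr rfl (fun x _ => h1 x), Finset.prod_mul_distrib]
  congr 1
  exact Equiv.prod_comp (D.perm γ) (fun y => h (D.rep y • τ))

/-! ### Equivariance of the period map -/

/-- chain rule for `F (g • ·)`, `g ∈ GL₂(ℝ)` of positive determinant (weight two). -/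
theorem hasDerivAt_comp_glsmul {F f : ℍ → ℂ}
    (hF : ∀ τ : ℍ, HasDerivAt (F ∘ ofComplex) (f τ) ↑τ) (g : GL (Fin 2) ℝ)
    (hg : 0 < g.val.det) (τ : ℍ) :
    HasDerivAt ((fun w : ℍ => F (g • w)) ∘ ofComplex) ((f ∣[(2 : ℤ)] g) τ) ↑τ := by
  have h1 : HasDerivAt (fun z : ℂ => ((g • ofComplex z : ℍ) : ℂ))
      (g.val.det / denom g τ ^ 2) τ :=
    (hasStrictDerivAt_smul hg τ).hasDerivAt
  have h2 : HasDerivAt (F ∘ ofComplex) (f (g • τ)) (((g • ofComplex (τ : ℂ) : ℍ)) : ℂ) := by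
    rw [ofComplex_apply]
    exact hF (g • τ)
  have h3 := h2.comp (τ : ℂ) h1
  have heq : ((fun w : ℍ => F (g • w)) ∘ ofComplex)
      = (F ∘ ofComplex) ∘ (fun z : ℂ => ((g • ofComplex z : ℍ) : ℂ)) := by
    funext z
    simp only [Function.comp_apply, ofComplex_apply]
  rw [heq]
  refine h3.congr_deriv ?_
  have hdet' : (0 : ℝ) < g.det.val := by
    rw [Matrix.GeneralLinearGroup.val_det_apply]
    exact hg
  have hσ : σ g = .refl ℝ ℂ := by
    rw [σ, if_pos hdet']
  rw [ModularForm.slash_apply, hσ]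
  have habs : |g.det.val| = g.val.det := by
    rw [Matrix.GeneralLinearGroup.val_det_apply]
    exact abs_of_pos hg
  rw [habs]
  simp only [ContinuousAlgEquiv.refl_apply]
  rw [show (2 : ℤ) - 1 = 1 from rfl, zpow_one, zpow_neg, div_eq_mul_inv]
  norm_cast
  ring

/-- `heckeSum F` is a primitive of `∑ x, f ∣[2] rep x`. -/
theorem hasDerivAt_heckeSum {F f : ℍ → ℂ}
    (hF : ∀ τ : ℍ, HasDerivAt (F ∘ ofComplex) (f τ) ↑τ) (τ : ℍ) :
    HasDerivAt (D.heckeSum F ∘ ofComplex)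
      (∑ x : D.X, (f ∣[(2 : ℤ)] D.rep x) τ) ↑τ := by
  have h0 : D.heckeSum F ∘ ofComplex =
      fun z => ∑ x : D.X, ((fun w : ℍ => F (D.rep x • w)) ∘ ofComplex) z := by
    funext z
    rfl
  rw [h0]
  exact HasDerivAt.fun_sum (fun x _ => hasDerivAt_comp_glsmul hF (D.rep x) (D.rep_det x) τ)

/-- **Equivariance of the period map**: if `g = ∑ₓ f ∣[2] rep x` as functions on `ℍ`, then the
periods of `g` are the transfer of the periods of `f`. -/
theorem periodMap_transfer [Γ.FiniteIndex] {M : ℕ} [NeZero M]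
    (hM : CongruenceSubgroup.Gamma M ≤ Γ) (f g : CuspForm Γ 2)
    (hg : ∀ τ : ℍ, g τ = ∑ x : D.X, ((f : ℍ → ℂ) ∣[(2 : ℤ)] D.rep x) τ) :
    periodMap Γ g = D.tHom (periodMap Γ f) := by
  obtain ⟨F, hF⟩ := exists_primitive hM f
  obtain ⟨G, hG⟩ := exists_primitive hM g
  have hd : ∀ τ : ℍ, HasDerivAt ((fun w : ℍ => G w - D.heckeSum F w) ∘ ofComplex) 0 ↑τ := by
    intro τ
    have h1 := hG.1 τ
    have h2 := D.hasDerivAt_heckeSum hF.1 τ
    rw [hg τ] at h1
    have h3 := h1.sub h2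
    rwa [sub_self] at h3
  obtain ⟨c, hc⟩ := Fermat.Agent.S21.exists_const_of_hasDerivAt_zero hd
  refine AddMonoidHom.ext fun γ' => ?_
  suffices key : ∀ γ : Γ, periodMap Γ g (Additive.ofMul γ) =
      D.tHom (periodMap Γ f) (Additive.ofMul γ) from key (Additive.toMul γ')
  intro γ
  rw [D.tHom_apply, periodMap_apply hG γ UpperHalfPlane.I]
  have e1 := hc ((γ : SL(2, ℤ)) • UpperHalfPlane.I)
  have e2 := hc UpperHalfPlane.I
  have hφ : ∀ (δ : Γ) (τ : ℍ),
      F ((δ : SL(2, ℤ)) • τ) = F τ + periodMap Γ f (Additive.ofMul δ) := fun δ τ => by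
    rw [periodMap_apply hF δ τ]
    ring
  have e3 := D.heckeSum_smul F (fun δ => periodMap Γ f (Additive.ofMul δ)) hφ γ
    UpperHalfPlane.I
  linear_combination e3 + e1 - e2

/-- Equivariance of the period map on `A_Γ`. -/
theorem periodAG_transfer [Γ.FiniteIndex] {M : ℕ} [NeZero M]
    (hM : CongruenceSubgroup.Gamma M ≤ Γ) (f g : CuspForm Γ 2)
    (hg : ∀ τ : ℍ, g τ = ∑ x : D.X, ((f : ℍ → ℂ) ∣[(2 : ℤ)] D.rep x) τ) :
    periodAG hM g = (periodAG hM f).comp D.tau := by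
  refine hom_ext fun γ => ?_
  rw [periodAG_proj, AddMonoidHom.comp_apply, D.tau_proj, D.periodMap_transfer hM f g hg]
  show D.tHom (periodMap Γ f) (Additive.ofMul γ) =
    (periodAG hM f) (D.tHom (proj Γ) (Additive.ofMul γ))
  rw [D.tHom_apply, D.tHom_apply, map_sum]
  rfl

/-- Equivariance of the period map, function form (the `occ` shape). -/
theorem periodFun_transfer [Γ.FiniteIndex] {M : ℕ} [NeZero M]
    (hM : CongruenceSubgroup.Gamma M ≤ Γ) (f g : CuspForm Γ 2)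
    (hg : ∀ τ : ℍ, g τ = ∑ x : D.X, ((f : ℍ → ℂ) ∣[(2 : ℤ)] D.rep x) τ) (a : AG Γ) :
    periodFun hM g a = periodFun hM f (D.tau a) := by
  rw [periodFun_apply, periodFun_apply, D.periodAG_transfer hM f g hg]
  rfl

end CosetData

end Fermat.Agent.S48.Betti1
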