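/-
S48 / G1, BETTI SIDE (helper191): ADJOINTNESS of the period map with Hecke transfers and with
diamond automorphisms, in the shape "ANY endomorphism `ω` of `A_Γ` with its transfer formula"
(the shape produced by `G1/CycleRep.tauAG_proj`, `autAG_proj`, `Betti1.CosetData.tau_proj_apply`
and consumed by `G1/Limit.exists_phi`, `G1/CommQuot.periodQuot_adj`, `G1/Glue1.krel_transfer`).

`Γ` is any finite index subgroup of `SL(2, ℤ)` containing some `Γ(M)`.

* `periodMap_eq_sum_of_spec`     : ONE-ELEMENT form.  If `g = ∑ₓ f ∣[2] rep x` and, for one `γ`,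
                                   `rep x * γ = c x * rep (σ x)` (`σ` a permutation), then
                                   `∫_γ g = ∑ₓ ∫_{c x} f`.  No cocycle / action axiom.
* `mapGL_mul_eq_of_int`          : an identity of integer matrices `t * a = b * t'` gives the
                                   identity in `GL₂(ℝ)` for real lifts of `t`, `t'`.
* `periodMap_eq_sum_of_int_spec` : the same with integer representatives.
* `periodFun_adjoint`            : `periodFun g a = periodFun f (ω a)` if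
                                   `ω [γ] = ∑ₓ [coc γ x]` and `rep x * γ = coc γ x * rep (perm γ x)`.
* `periodFun_adjoint_int`        : the same with integer representatives.
* `periodFun_tauAG`              : the case `ω = CycleRep.tauAG hι S ht` of a `Transfer.RepSys`.
* `periodFun_conj`               : DIAMOND form: `g = f ∣[2] s`, `ω [γ] = [cj γ]`,
                                   `cj γ = s γ s⁻¹`.
* `periodFun_autAG`              : the case `ω = CycleRep.autAG θ hθ`.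
* `period1_*`                    : the instances `Γ = Γ₁(M)`.
-/
import Mathlib
import Fermat.Agent.S48.Betti1.Transfer
import Fermat.Agent.S48.G1.CycleRep

set_option autoImplicit false

noncomputable section

open scoped MatrixGroups ModularForm
open Matrix.SpecialLinearGroup UpperHalfPlane ModularCurve ModularCurve.Period

namespace Fermat.Agent.S48.Betti1

variable {Γ : Subgroup SL(2, ℤ)}

/-- **Equivariance of the period map, one-element form.**  If `g = ∑ₓ f ∣[2] rep x` as functions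
and, for the single element `γ`, right translation permutes the cosets
(`rep x * γ = c x * rep (σ x)`), then the period of `g` along `γ` is the sum of the periods of
`f` along the `c x`. -/
theorem periodMap_eq_sum_of_spec [Γ.FiniteIndex] {M : ℕ} [NeZero M]
    (hM : CongruenceSubgroup.Gamma M ≤ Γ) {X : Type*} [Fintype X]
    (rep : X → GL (Fin 2) ℝ) (hdet : ∀ x, 0 < (rep x).val.det) (f g : CuspForm Γ 2)
    (hg : ∀ τ : ℍ, g τ = ∑ x : X, ((f : ℍ → ℂ) ∣[(2 : ℤ)] rep x) τ)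
    (γ : Γ) (σ : Equiv.Perm X) (c : X → Γ)
    (hspec : ∀ x, rep x * mapGL ℝ (γ : SL(2, ℤ)) = mapGL ℝ (c x : SL(2, ℤ)) * rep (σ x)) :
    periodMap Γ g (Additive.ofMul γ) = ∑ x : X, periodMap Γ f (Additive.ofMul (c x)) := by
  obtain ⟨F, hF⟩ := exists_primitive hM f
  obtain ⟨G, hG⟩ := exists_primitive hM g
  set S : ℍ → ℂ := fun w => ∑ x : X, F (rep x • w) with hSdef
  have hS : ∀ τ : ℍ, HasDerivAt (S ∘ ofComplex)
      (∑ x : X, ((f : ℍ → ℂ) ∣[(2 : ℤ)] rep x) τ) ↑τ := by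
    intro τ
    have h0 : S ∘ ofComplex =
        fun z => ∑ x : X, ((fun w : ℍ => F (rep x • w)) ∘ ofComplex) z := by
      funext z
      rfl
    rw [h0]
    exact HasDerivAt.fun_sum
      (fun x _ => CosetData.hasDerivAt_comp_glsmul hF.1 (rep x) (hdet x) τ)
  have hd : ∀ τ : ℍ, HasDerivAt ((fun w : ℍ => G w - S w) ∘ ofComplex) 0 ↑τ := by
    intro τ
    have h1 := hG.1 τ
    rw [hg τ] at h1
    have h3 := h1.sub (hS τ)
    rwa [sub_self] at h3
  obtain ⟨k, hk⟩ := Fermat.Agent.S21.exists_const_of_hasDerivAt_zero hd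
  rw [periodMap_apply hG γ UpperHalfPlane.I]
  have e1 := hk ((γ : SL(2, ℤ)) • UpperHalfPlane.I)
  have e2 := hk UpperHalfPlane.I
  have h1 : ∀ x : X, F (rep x • ((γ : SL(2, ℤ)) • UpperHalfPlane.I)) =
      F (rep (σ x) • UpperHalfPlane.I) + periodMap Γ f (Additive.ofMul (c x)) := fun x => by
    have hsm : rep x • ((γ : SL(2, ℤ)) • UpperHalfPlane.I) =
        (c x : SL(2, ℤ)) • (rep (σ x) • UpperHalfPlane.I) := by
      rw [ModularGroup.sl_moeb, ModularGroup.sl_moeb, ← mul_smul, ← mul_smul]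
      exact congrArg (· • UpperHalfPlane.I) (hspec x)
    rw [hsm, periodMap_apply hF (c x) (rep (σ x) • UpperHalfPlane.I)]
    ring
  have e3 : S ((γ : SL(2, ℤ)) • UpperHalfPlane.I) =
      S UpperHalfPlane.I + ∑ x : X, periodMap Γ f (Additive.ofMul (c x)) := by
    show ∑ x : X, F (rep x • ((γ : SL(2, ℤ)) • UpperHalfPlane.I)) =
      ∑ x : X, F (rep x • UpperHalfPlane.I) + ∑ x : X, periodMap Γ f (Additive.ofMul (c x))
    rw [Finset.sum_congr rfl (fun x _ => h1 x), Finset.sum_add_distrib]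
    congr 1
    exact Equiv.sum_comp σ (fun y => F (rep y • UpperHalfPlane.I))
  linear_combination e3 + e1 - e2

/-- An identity `t * a = b * t'` of integer matrices (`a b ∈ SL₂(ℤ)`) is an identity in
`GL₂(ℝ)` for any real lifts `r`, `r'` of `t`, `t'`. -/
theorem mapGL_mul_eq_of_int {t t' : Matrix (Fin 2) (Fin 2) ℤ} {r r' : GL (Fin 2) ℝ}
    (hr : (r : Matrix (Fin 2) (Fin 2) ℝ) = t.map (Int.cast : ℤ → ℝ))
    (hr' : (r' : Matrix (Fin 2) (Fin 2) ℝ) = t'.map (Int.cast : ℤ → ℝ)) {a b : SL(2, ℤ)}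
    (h : t * (a : Matrix (Fin 2) (Fin 2) ℤ) = (b : Matrix (Fin 2) (Fin 2) ℤ) * t') :
    r * mapGL ℝ a = mapGL ℝ b * r' := by
  apply Units.ext
  rw [Units.val_mul, Units.val_mul, hr, hr', CosetData.mapGL_val', CosetData.mapGL_val',
    ← Matrix.map_mul_intCast, ← Matrix.map_mul_intCast, h]

/-- Positivity of the determinant of a real lift of an integer matrix. -/
theorem det_pos_of_int {t : Matrix (Fin 2) (Fin 2) ℤ} {r : GL (Fin 2) ℝ}
    (hr : (r : Matrix (Fin 2) (Fin 2) ℝ) = t.map (Int.cast : ℤ → ℝ)) (ht : 0 < t.det) :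
    0 < r.val.det := by
  rw [hr, Matrix.det_fin_two]
  simp only [Matrix.map_apply]
  rw [Matrix.det_fin_two] at ht
  exact_mod_cast ht

/-- One-element equivariance with integer representatives. -/
theorem periodMap_eq_sum_of_int_spec [Γ.FiniteIndex] {M : ℕ} [NeZero M]
    (hM : CongruenceSubgroup.Gamma M ≤ Γ) {X : Type*} [Fintype X]
    (t : X → Matrix (Fin 2) (Fin 2) ℤ) (ht : ∀ x, 0 < (t x).det)
    (rep : X → GL (Fin 2) ℝ)
    (hrep : ∀ x, (rep x : Matrix (Fin 2) (Fin 2) ℝ) = (t x).map (Int.cast : ℤ → ℝ))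
    (f g : CuspForm Γ 2)
    (hg : ∀ τ : ℍ, g τ = ∑ x : X, ((f : ℍ → ℂ) ∣[(2 : ℤ)] rep x) τ)
    (γ : Γ) (σ : Equiv.Perm X) (c : X → Γ)
    (hspec : ∀ x, t x * ((γ : SL(2, ℤ)) : Matrix (Fin 2) (Fin 2) ℤ) =
      ((c x : SL(2, ℤ)) : Matrix (Fin 2) (Fin 2) ℤ) * t (σ x)) :
    periodMap Γ g (Additive.ofMul γ) = ∑ x : X, periodMap Γ f (Additive.ofMul (c x)) :=
  periodMap_eq_sum_of_spec hM rep (fun x => det_pos_of_int (hrep x) (ht x)) f g hg γ σ c
    (fun x => mapGL_mul_eq_of_int (hrep x) (hrep (σ x)) (hspec x))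

/-- **Adjointness of the period map with a transfer** (real representatives): if
`g = ∑ₓ f ∣[2] rep x`, `rep x * γ = coc γ x * rep (perm γ x)` and `ω [γ] = ∑ₓ [coc γ x]` on
`A_Γ`, then `P g a = P f (ω a)`. -/
theorem periodFun_adjoint [Γ.FiniteIndex] {M : ℕ} [NeZero M]
    (hM : CongruenceSubgroup.Gamma M ≤ Γ) {X : Type*} [Fintype X]
    (rep : X → GL (Fin 2) ℝ) (hdet : ∀ x, 0 < (rep x).val.det) (f g : CuspForm Γ 2)
    (hg : ∀ τ : ℍ, g τ = ∑ x : X, ((f : ℍ → ℂ) ∣[(2 : ℤ)] rep x) τ)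
    (perm : Γ → Equiv.Perm X) (coc : Γ → X → Γ)
    (hspec : ∀ (γ : Γ) (x : X),
      rep x * mapGL ℝ (γ : SL(2, ℤ)) = mapGL ℝ (coc γ x : SL(2, ℤ)) * rep (perm γ x))
    (ω : AG Γ →+ AG Γ)
    (hω : ∀ γ : Γ, ω (proj Γ (Additive.ofMul γ)) = ∑ x : X, proj Γ (Additive.ofMul (coc γ x)))
    (a : AG Γ) : periodFun hM g a = periodFun hM f (ω a) := by
  have key : periodAG hM g = (periodAG hM f).comp ω := by
    refine hom_ext fun γ => ?_
    rw [periodAG_proj, AddMonoidHom.comp_apply, hω, map_sum,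
      periodMap_eq_sum_of_spec hM rep hdet f g hg γ (perm γ) (coc γ) (hspec γ)]
    rfl
  rw [periodFun_apply, periodFun_apply, key]
  rfl

/-- **Adjointness of the period map with a transfer** (integer representatives). -/
theorem periodFun_adjoint_int [Γ.FiniteIndex] {M : ℕ} [NeZero M]
    (hM : CongruenceSubgroup.Gamma M ≤ Γ) {X : Type*} [Fintype X]
    (t : X → Matrix (Fin 2) (Fin 2) ℤ) (ht : ∀ x, 0 < (t x).det)
    (rep : X → GL (Fin 2) ℝ)
    (hrep : ∀ x, (rep x : Matrix (Fin 2) (Fin 2) ℝ) = (t x).map (Int.cast : ℤ → ℝ))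
    (f g : CuspForm Γ 2)
    (hg : ∀ τ : ℍ, g τ = ∑ x : X, ((f : ℍ → ℂ) ∣[(2 : ℤ)] rep x) τ)
    (perm : Γ → Equiv.Perm X) (coc : Γ → X → Γ)
    (hspec : ∀ (γ : Γ) (x : X), t x * ((γ : SL(2, ℤ)) : Matrix (Fin 2) (Fin 2) ℤ) =
      ((coc γ x : SL(2, ℤ)) : Matrix (Fin 2) (Fin 2) ℤ) * t (perm γ x))
    (ω : AG Γ →+ AG Γ)
    (hω : ∀ γ : Γ, ω (proj Γ (Additive.ofMul γ)) = ∑ x : X, proj Γ (Additive.ofMul (coc γ x)))
    (a : AG Γ) : periodFun hM g a = periodFun hM f (ω a) :=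
  periodFun_adjoint hM rep (fun x => det_pos_of_int (hrep x) (ht x)) f g hg perm coc
    (fun γ x => mapGL_mul_eq_of_int (hrep x) (hrep (perm γ x)) (hspec γ x)) ω hω a

open Fermat.Agent.S48.G1.Transfer Fermat.Agent.S48.G1.CycleRep in
/-- **Adjointness with `CycleRep.tauAG`**: for a system of integer representatives `S` (of
positive determinant) with real lifts `rep`, if `g = ∑ₓ f ∣[2] rep x` then
`P g a = P f (tauAG S a)`. -/
theorem periodFun_tauAG [Γ.FiniteIndex] {M : ℕ} [NeZero M]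
    (hM : CongruenceSubgroup.Gamma M ≤ Γ) {X : Type*} [Fintype X]
    {ι : Γ →* Matrix (Fin 2) (Fin 2) ℤ}
    (hι : ∀ g : Γ, ι g = ((g : SL(2, ℤ)) : Matrix (Fin 2) (Fin 2) ℤ))
    (S : RepSys ι X) (ht : ∀ x, (S.t x).det ≠ 0) (hpos : ∀ x, 0 < (S.t x).det)
    (rep : X → GL (Fin 2) ℝ)
    (hrep : ∀ x, (rep x : Matrix (Fin 2) (Fin 2) ℝ) = (S.t x).map (Int.cast : ℤ → ℝ))
    (f g : CuspForm Γ 2)
    (hg : ∀ τ : ℍ, g τ = ∑ x : X, ((f : ℍ → ℂ) ∣[(2 : ℤ)] rep x) τ) (a : AG Γ) :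
    periodFun hM g a = periodFun hM f (tauAG hι S ht a) :=
  periodFun_adjoint_int hM S.t hpos rep hrep f g hg S.toCocSys.permEquiv S.coc
    (fun γ x => by
      have h := S.spec γ x
      rw [hι, hι] at h
      exact h)
    (tauAG hι S ht) (fun γ => tauAG_proj hι S ht γ) a

/-- **Adjointness of the period map with a conjugation** (diamond form): if `g = f ∣[2] s`
(`s ∈ SL₂(ℤ)` normalising `Γ`), `cj γ = s γ s⁻¹` and `ω [γ] = [cj γ]` on `A_Γ`, then
`P g a = P f (ω a)`. -/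
theorem periodFun_conj [Γ.FiniteIndex] {M : ℕ} [NeZero M]
    (hM : CongruenceSubgroup.Gamma M ≤ Γ) (s : SL(2, ℤ)) (cj : Γ → Γ)
    (hcj : ∀ γ : Γ, (cj γ : SL(2, ℤ)) = s * γ * s⁻¹) (f g : CuspForm Γ 2)
    (hg : ∀ τ : ℍ, g τ = ((f : ℍ → ℂ) ∣[(2 : ℤ)] (mapGL ℝ s : GL (Fin 2) ℝ)) τ)
    (ω : AG Γ →+ AG Γ)
    (hω : ∀ γ : Γ, ω (proj Γ (Additive.ofMul γ)) = proj Γ (Additive.ofMul (cj γ)))
    (a : AG Γ) : periodFun hM g a = periodFun hM f (ω a) := by
  refine periodFun_adjoint hM (X := Unit) (fun _ => mapGL ℝ s) (fun _ => ?_) f g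
    (fun τ => by rw [hg τ]; simp) (fun _ => 1) (fun γ _ => cj γ) (fun γ _ => ?_) ω
    (fun γ => by rw [hω γ]; simp) a
  · rw [CosetData.mapGL_val', Matrix.det_fin_two]
    have hdet := s.det_coe
    rw [Matrix.det_fin_two] at hdet
    simp only [Matrix.map_apply]
    have : ((s 0 0 * s 1 1 - s 0 1 * s 1 0 : ℤ) : ℝ) = 1 := by rw [hdet]; simp
    push_cast at this
    rw [this]
    exact one_pos
  · show mapGL ℝ s * mapGL ℝ (γ : SL(2, ℤ)) = mapGL ℝ (cj γ : SL(2, ℤ)) * mapGL ℝ s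
    rw [← map_mul, ← map_mul, hcj γ, inv_mul_cancel_right]

open Fermat.Agent.S48.G1.CycleRep in
/-- **Adjointness with `CycleRep.autAG`**. -/
theorem periodFun_autAG [Γ.FiniteIndex] {M : ℕ} [NeZero M]
    (hM : CongruenceSubgroup.Gamma M ≤ Γ) (s : SL(2, ℤ)) (θ : Γ →* Γ)
    (hθ : ∀ g : Γ, ((θ g : SL(2, ℤ)) : Matrix (Fin 2) (Fin 2) ℤ).trace =
      ((g : SL(2, ℤ)) : Matrix (Fin 2) (Fin 2) ℤ).trace)
    (hs : ∀ γ : Γ, (θ γ : SL(2, ℤ)) = s * γ * s⁻¹) (f g : CuspForm Γ 2)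
    (hg : ∀ τ : ℍ, g τ = ((f : ℍ → ℂ) ∣[(2 : ℤ)] (mapGL ℝ s : GL (Fin 2) ℝ)) τ)
    (a : AG Γ) : periodFun hM g a = periodFun hM f (autAG θ hθ a) :=
  periodFun_conj hM s θ hs f g hg (autAG θ hθ) (fun γ => autAG_proj θ hθ γ) a

end Fermat.Agent.S48.Betti1
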