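/-
S48 / G1, BETTI SIDE (helper191): the instance `Γ₁(M)`.  The Hecke correspondences `tau1 ℓ` and
the diamond automorphisms `dia1 d` of `A₁(M) = Γ₁(M)^ab / ⟨parabolic, elliptic⟩`, and their
ADJOINTNESS with the classical operators of brick B on `S₂(Γ₁(M))` through the period map:

  `period1 M (Hecke1.heckeT1 M 2 hℓ hℓM f) a = period1 M f (tau1 M hℓ hℓM a)`,
  `period1 M (Hecke1.diamond M 2 d f) a      = period1 M f (dia1 M d a)`.

`tau1` is `CycleRep.tauAG` of helper79's coset system `Gamma1Coset.sys1` (representatives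
`[[1, j], [0, ℓ]]` and `σ_ℓ [[ℓ, 0], [0, 1]]`, `σ_ℓ = Hecke1.diamondRep M ℓ`), so
`tau1 [γ] = ∑ₓ [coc γ x]` (`tau1_proj`, by `rfl`);  `dia1 d` is `CycleRep.autAG` of the
conjugation `γ ↦ s γ s⁻¹`, `s = Hecke1.diamondRep M d` (`dia1_proj`, by `rfl`).
-/
import Mathlib
import Fermat.Agent.S48.Betti1.Adjoint
import Fermat.Agent.S48.G1.Gamma1Coset
import Fermat.Agent.S48.Hecke1.Bundle

set_option autoImplicit false

noncomputable section

open scoped MatrixGroups ModularForm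
open Matrix.SpecialLinearGroup UpperHalfPlane ModularForm CongruenceSubgroup

namespace Fermat.Agent.S48.Betti1

open Fermat.Agent.S48.G1.Gamma1Coset Fermat.Agent.S48.G1.CycleRep Fermat.Agent.S48.Hecke1
open Fermat.Agent.S22.HeckePerm (tRep tRep_infty tRep_coe heckeU_eq_sum_zmod)
open Fermat.Agent.S30.BettiHecke (tMat tRep_val)

/-! ### Hecke correspondences -/

section Hecke

variable (M : ℕ) [NeZero M] {ℓ : ℕ} (hℓ : ℓ.Prime) (hℓM : ¬ ℓ ∣ M)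

/-- Real lifts of the representatives `Gamma1Coset.t1Mat` of `T_ℓ` on `Γ₁(M)`:
`[[1, j], [0, ℓ]]` at `j`, `σ_ℓ [[ℓ, 0], [0, 1]]` at `∞`. -/
def rep1 (x : OnePoint (ZMod ℓ)) : GL (Fin 2) ℝ :=
  mapGL ℝ (sPt M hℓ hℓM x) * tRep ℓ x

theorem rep1_val (x : OnePoint (ZMod ℓ)) :
    ((rep1 M hℓ hℓM x : GL (Fin 2) ℝ) : Matrix (Fin 2) (Fin 2) ℝ) =
      (t1Mat M hℓ hℓM x).map (Int.cast : ℤ → ℝ) := by
  rw [rep1, Units.val_mul, CosetData.mapGL_val', tRep_val hℓ.ne_zero, t1Mat,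
    Matrix.map_mul_intCast]

theorem rep1_infty :
    rep1 M hℓ hℓM OnePoint.infty =
      mapGL ℝ (diamondRep M (primeUnit hℓ hℓM)) * heckeDiagMatrix ℓ := rfl

theorem rep1_coe (j : ZMod ℓ) :
    rep1 M hℓ hℓM (j : OnePoint (ZMod ℓ)) = heckeMatrix ℓ j.val := by
  rw [rep1, sPt_coe, map_one, one_mul, tRep_coe]

/-- `T_ℓ f = ∑ₓ f ∣[k] rep1 x` (brick B's `heckeT1`, any weight). -/
theorem heckeT1_eq_sum [NeZero ℓ] (k : ℤ) (f : CuspForm (Gamma1 M) k) :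
    (⇑(heckeT1 M k hℓ hℓM f) : ℍ → ℂ) =
      ∑ x : OnePoint (ZMod ℓ), ((f : ℍ → ℂ) ∣[k] rep1 M hℓ hℓM x) := by
  rw [coe_heckeT1_eq, heckeU_eq_sum_zmod, add_comm]
  refine Eq.trans ?_
    (Fintype.sum_option (fun x : OnePoint (ZMod ℓ) => (f : ℍ → ℂ) ∣[k] rep1 M hℓ hℓM x)).symm
  congr 1
  · show ((f : ℍ → ℂ) ∣[k] (mapGL ℝ (diamondRep M (primeUnit hℓ hℓM)) : GL (Fin 2) ℝ))
        ∣[k] heckeDiagMatrix ℓ = _
    rw [← SlashAction.slash_mul]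
    rfl
  · refine Finset.sum_congr rfl fun j _ => ?_
    show _ = (f : ℍ → ℂ) ∣[k] rep1 M hℓ hℓM (j : OnePoint (ZMod ℓ))
    rw [rep1_coe]

/-- **The Hecke correspondence `τ_ℓ` on `A₁(M)`** (`ℓ ∤ M` prime). -/
def tau1 : A1 M →+ A1 M :=
  haveI : NeZero ℓ := ⟨hℓ.ne_zero⟩
  tauAG (iota_apply M) (sys1 M hℓ hℓM) (det_t1Mat_ne_zero M hℓ hℓM)

/-- Transfer formula: `τ_ℓ [γ] = ∑ₓ [coc γ x]`. -/
theorem tau1_proj [NeZero ℓ] (γ : Gamma1 M) :
    tau1 M hℓ hℓM (proj (Gamma1 M) (Additive.ofMul γ)) =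
      ∑ x : OnePoint (ZMod ℓ),
        proj (Gamma1 M) (Additive.ofMul ((sys1 M hℓ hℓM).coc γ x)) := rfl

/-- The coset identity behind `tau1`, in `GL₂(ℝ)`. -/
theorem rep1_spec (γ : Gamma1 M) (x : OnePoint (ZMod ℓ)) :
    rep1 M hℓ hℓM x * mapGL ℝ (γ : SL(2, ℤ)) =
      mapGL ℝ (((sys1 M hℓ hℓM).coc γ x : Gamma1 M) : SL(2, ℤ)) *
        rep1 M hℓ hℓM ((sys1 M hℓ hℓM).perm γ x) :=
  mapGL_mul_eq_of_int (rep1_val M hℓ hℓM x) (rep1_val M hℓ hℓM _) ((sys1 M hℓ hℓM).spec γ x)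

theorem rep1_det_pos (x : OnePoint (ZMod ℓ)) : 0 < (rep1 M hℓ hℓM x).val.det :=
  det_pos_of_int (rep1_val M hℓ hℓM x) (by
    rw [det_t1Mat]
    exact_mod_cast hℓ.pos)

/-- **Adjointness of the period map: `T_ℓ ↔ τ_ℓ`.** -/
theorem period1_heckeT1 (f : CuspForm (Gamma1 M) 2) (a : A1 M) :
    period1 M (heckeT1 M 2 hℓ hℓM f) a = period1 M f (tau1 M hℓ hℓM a) :=
  haveI : NeZero ℓ := ⟨hℓ.ne_zero⟩
  periodFun_tauAG (gamma_le_gamma1 M) (iota_apply M) (sys1 M hℓ hℓM)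
    (det_t1Mat_ne_zero M hℓ hℓM)
    (fun x => by
      rw [sys1_t, det_t1Mat]
      exact_mod_cast hℓ.pos)
    (rep1 M hℓ hℓM) (fun x => rep1_val M hℓ hℓM x) f (heckeT1 M 2 hℓ hℓM f)
    (fun τ => by
      rw [heckeT1_eq_sum, Finset.sum_apply]) a

end Hecke

/-! ### Diamond automorphisms -/

section Diamond

variable (M : ℕ) [NeZero M]

/-- Conjugation by `s ∈ Γ₀(M)`, as an endomorphism of `Γ₁(M)`. -/
def conj1 (s : SL(2, ℤ)) (hs : s ∈ Gamma0 M) : Gamma1 M →* Gamma1 M where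
  toFun γ := ⟨s * γ * s⁻¹, mem_gamma1_of_isD1 (by
    have h := IsD1.conj hs (isD1_of_mem_gamma1 γ.2)
    simpa only [Matrix.SpecialLinearGroup.coe_mul] using h)⟩
  map_one' := by
    apply Subtype.ext
    simp
  map_mul' γ δ := by
    apply Subtype.ext
    simp [mul_assoc]

theorem conj1_coe (s : SL(2, ℤ)) (hs : s ∈ Gamma0 M) (γ : Gamma1 M) :
    (conj1 M s hs γ : SL(2, ℤ)) = s * γ * s⁻¹ := rfl

theorem conj1_trace (s : SL(2, ℤ)) (hs : s ∈ Gamma0 M) (γ : Gamma1 M) :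
    ((conj1 M s hs γ : SL(2, ℤ)) : Matrix (Fin 2) (Fin 2) ℤ).trace =
      ((γ : SL(2, ℤ)) : Matrix (Fin 2) (Fin 2) ℤ).trace :=
  Fermat.Agent.S48.G1.CycleGen.trace_conj s γ

/-- The automorphism of `A₁(M)` induced by conjugation by `s ∈ Γ₀(M)`. -/
def diaS (s : SL(2, ℤ)) (hs : s ∈ Gamma0 M) : A1 M →+ A1 M :=
  autAG (conj1 M s hs) (conj1_trace M s hs)

theorem diaS_proj (s : SL(2, ℤ)) (hs : s ∈ Gamma0 M) (γ : Gamma1 M) :
    diaS M s hs (proj (Gamma1 M) (Additive.ofMul γ)) =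
      proj (Gamma1 M) (Additive.ofMul (conj1 M s hs γ)) := rfl

/-- Adjointness of the period map with slashing by `s ∈ Γ₀(M)`. -/
theorem period1_slash (s : SL(2, ℤ)) (hs : s ∈ Gamma0 M) (f g : CuspForm (Gamma1 M) 2)
    (hg : ∀ τ : ℍ, g τ = ((f : ℍ → ℂ) ∣[(2 : ℤ)] (mapGL ℝ s : GL (Fin 2) ℝ)) τ) (a : A1 M) :
    period1 M g a = period1 M f (diaS M s hs a) :=
  periodFun_autAG (gamma_le_gamma1 M) s (conj1 M s hs) (conj1_trace M s hs)
    (fun γ => conj1_coe M s hs γ) f g hg a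

/-- **The diamond automorphism `δ_d` of `A₁(M)`**: conjugation by `Hecke1.diamondRep M d`. -/
def dia1 (d : (ZMod M)ˣ) : A1 M →+ A1 M :=
  diaS M (diamondRep M d) (diamondRep_mem M d)

theorem dia1_proj (d : (ZMod M)ˣ) (γ : Gamma1 M) :
    dia1 M d (proj (Gamma1 M) (Additive.ofMul γ)) =
      proj (Gamma1 M)
        (Additive.ofMul (conj1 M (diamondRep M d) (diamondRep_mem M d) γ)) := rfl

/-- **Adjointness of the period map: `⟨d⟩ ↔ δ_d`.** -/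
theorem period1_diamond (d : (ZMod M)ˣ) (f : CuspForm (Gamma1 M) 2) (a : A1 M) :
    period1 M (diamond M 2 d f) a = period1 M f (dia1 M d a) :=
  period1_slash M (diamondRep M d) (diamondRep_mem M d) f (diamond M 2 d f) (fun _ => rfl) a

end Diamond

end Fermat.Agent.S48.Betti1
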