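/-
S48 / G1, AREA B (BETTI) — THE EXITS (helper191).

The literal period / relation hypotheses of helper78's `G1/ToES1Quot.nonempty_es1Data` for

  `V := CuspForm (Gamma1 M) 2`,  `T := Ops.Top M`,  `Dm := Ops.Dop M`   (brick B, total families),
  `tau := Betti1.tauN M`  (total in `ℓ`),  `dia := Betti1.dia1 M`,  `P := Betti1.period1 M`:

* `period1_add`, `period1_injective`                 (`hadd`, `hinj`; `Betti1/AG.lean`);
* `period1_Top`, `period1_Dop`                       (`P_T`, `P_D`);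
* `Top_comm`, `Top_Dop`, `Dop_mul`, `Dop_one`, `Dop_neg_one`   (`TT`, `TD`, `DD`, `D1`, `Dneg`);
* `nonempty_es1Data_of_kummer` : SEAM THEOREM.  A Kummer pairing `K` with `K.A ≃+ A₁(M)` and the
  six Kummer-side hypotheses (operator pairs, Galois commutation, unr, es) give
  `Nonempty (ES1Data M p (Ops.Top M) (Ops.Dop M))`.
-/
import Mathlib
import Fermat.Agent.S48.Betti1.Gamma1Adj
import Fermat.Agent.S48.G1.Ops
import Fermat.Agent.S48.G1.ToES1Quot
import Fermat.Agent.S48.Hecke1.Comm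

set_option autoImplicit false

noncomputable section

open scoped MatrixGroups ModularForm
open Matrix.SpecialLinearGroup UpperHalfPlane ModularForm CongruenceSubgroup

namespace Fermat.Agent.S48.Betti1

open Fermat.Agent.S48.G1 Fermat.Agent.S48.G1.Ops Fermat.Agent.S48.G1.ToES1Quot
open Fermat.Agent.S48.Hecke1

/-- Slashing by `-1 ∈ SL₂(ℤ)` in weight two is the identity. -/
theorem slash_two_neg_one (f : ℍ → ℂ) : f ∣[(2 : ℤ)] (-1 : SL(2, ℤ)) = f := by
  funext τ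
  rw [SL_slash_apply]
  have h1 : (-1 : SL(2, ℤ)) • τ = τ := by
    rw [ModularGroup.SL_neg_smul, one_smul]
  rw [h1]
  have h2 : denom ((-1 : SL(2, ℤ)) : GL (Fin 2) ℝ) τ = -1 := by
    simp [denom]
  rw [h2]
  norm_num

section

variable (M : ℕ) [NeZero M]

/-- `⟨-1⟩ = 1` on `S₂(Γ₁(M))`. -/
theorem diamond_neg_one (f : CuspForm (Gamma1 M) 2) : diamond M 2 (-1) f = f := by
  have hmem : (-1 : SL(2, ℤ)) ∈ Gamma0 M := by
    rw [Gamma0_mem]
    simp
  have h := slash_eq_diamond f (-1) hmem (by simp)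
  rw [slash_two_neg_one] at h
  exact (DFunLike.coe_injective h).symm

/-- The Hecke correspondence on `A₁(M)`, total in `ℓ`: `tau1` at the primes `ℓ ∤ M`, `0`
otherwise. -/
def tauN (ℓ : ℕ) : A1 M →+ A1 M :=
  if h : ℓ.Prime ∧ ¬ ℓ ∣ M then tau1 M h.1 h.2 else 0

theorem tauN_eq {ℓ : ℕ} (hℓ : ℓ.Prime) (hℓM : ¬ ℓ ∣ M) : tauN M ℓ = tau1 M hℓ hℓM :=
  dif_pos ⟨hℓ, hℓM⟩

/-- Transfer formula for `tauN`. -/
theorem tauN_proj {ℓ : ℕ} [NeZero ℓ] (hℓ : ℓ.Prime) (hℓM : ¬ ℓ ∣ M) (γ : Gamma1 M) :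
    tauN M ℓ (proj (Gamma1 M) (Additive.ofMul γ)) =
      ∑ x : OnePoint (ZMod ℓ),
        proj (Gamma1 M)
          (Additive.ofMul ((Fermat.Agent.S48.G1.Gamma1Coset.sys1 M hℓ hℓM).coc γ x)) := by
  rw [tauN_eq M hℓ hℓM]
  exact tau1_proj M hℓ hℓM γ

/-- (`P_T`) adjointness of the period map with the total Hecke family. -/
theorem period1_Top {ℓ : ℕ} (hℓ : ℓ.Prime) (hℓM : ¬ ℓ ∣ M) (f : CuspForm (Gamma1 M) 2)
    (x : A1 M) : period1 M (Top M ℓ f) x = period1 M f (tauN M ℓ x) := by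
  rw [Top_apply M hℓ hℓM, tauN_eq M hℓ hℓM]
  exact period1_heckeT1 M hℓ hℓM f x

/-- (`P_D`) adjointness of the period map with the total diamond family. -/
theorem period1_Dop (u : (ZMod M)ˣ) (f : CuspForm (Gamma1 M) 2) (x : A1 M) :
    period1 M (Dop M u f) x = period1 M f (dia1 M u x) := by
  rw [Dop_apply]
  exact period1_diamond M u f x

/-- (`TT`) -/
theorem Top_comm {ℓ ℓ' : ℕ} (hℓ : ℓ.Prime) (hℓM : ¬ ℓ ∣ M) (hℓ' : ℓ'.Prime) (hℓ'M : ¬ ℓ' ∣ M)
    (f : CuspForm (Gamma1 M) 2) : Top M ℓ (Top M ℓ' f) = Top M ℓ' (Top M ℓ f) := by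
  rw [Top_eq M hℓ hℓM, Top_eq M hℓ' hℓ'M]
  exact heckeT1_comm M 2 hℓ hℓM hℓ' hℓ'M f

/-- (`TD`) -/
theorem Top_Dop {ℓ : ℕ} (hℓ : ℓ.Prime) (hℓM : ¬ ℓ ∣ M) (u : (ZMod M)ˣ)
    (f : CuspForm (Gamma1 M) 2) : Top M ℓ (Dop M u f) = Dop M u (Top M ℓ f) := by
  rw [Top_eq M hℓ hℓM, Dop_eq]
  exact (diamond_heckeT1 M 2 hℓ hℓM u f).symm

/-- (`DD`) -/
theorem Dop_mul (u v : (ZMod M)ˣ) (f : CuspForm (Gamma1 M) 2) :
    Dop M (u * v) f = Dop M u (Dop M v f) := by
  rw [Dop_eq, Dop_eq, Dop_eq]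
  exact (diamond_mul M 2 u v f).symm

/-- (`D1`) -/
theorem Dop_one (f : CuspForm (Gamma1 M) 2) : Dop M 1 f = f := by
  rw [Dop_eq]
  exact diamond_one M 2 f

/-- (`Dneg`) -/
theorem Dop_neg_one (f : CuspForm (Gamma1 M) 2) : Dop M (-1) f = f := by
  rw [Dop_eq]
  exact diamond_neg_one M f

end

/-! ### The seam with `ToES1Quot.nonempty_es1Data` -/

section Seam

open Fermat.Agent.S30 Fermat.Agent.S30.BettiLimit

variable {M p : ℕ} [NeZero M] [Fact p.Prime] {F : Type} [Field F] {gal : GQ → F ≃+* F}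

/-- Transport of an endomorphism of `A₁(M)` to a group `A ≃+ A₁(M)`. -/
def pull {A : Type} [AddCommGroup A] (e : A ≃+ A1 M) (ω : A1 M →+ A1 M) : A →+ A :=
  (e.symm.toAddMonoidHom.comp ω).comp e.toAddMonoidHom

theorem pull_apply {A : Type} [AddCommGroup A] (e : A ≃+ A1 M) (ω : A1 M →+ A1 M) (x : A) :
    e (pull e ω x) = ω (e x) := by
  show e (e.symm (ω (e x))) = ω (e x)
  rw [AddEquiv.apply_symm_apply]

/-- The period map of level `Γ₁(M)` transported to a group `A ≃+ A₁(M)`. -/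
def periodE {A : Type} [AddCommGroup A] (e : A ≃+ A1 M) :
    CuspForm (Gamma1 M) 2 →ₗ[ℂ] (A → ℂ) :=
  (LinearMap.funLeft ℂ ℂ (e : A → A1 M)).comp (period1 M)

theorem periodE_apply {A : Type} [AddCommGroup A] (e : A ≃+ A1 M) (f : CuspForm (Gamma1 M) 2)
    (x : A) : periodE e f x = period1 M f (e x) := rfl

/-- **SEAM THEOREM of area B.**  A Kummer pairing `K` whose character group is (isomorphic to)
`A₁(M)`, with the operator pairs `(heckeF ℓ, tauN M ℓ)`, `(diaF u, dia1 M u)` and the four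
function-level statements (Galois commutation, unr, es), gives the Eichler–Shimura data with
diamonds for `S₂(Γ₁(M))` with the operators of brick B.  Everything on the Betti / period /
cusp-form side is discharged here. -/
theorem nonempty_es1Data_of_kummer (K : KummerPairing p F gal) (e : K.A ≃+ A1 M)
    (heckeF : ℕ → F → F) (diaF : (ZMod M)ˣ → F → F)
    (hecke : ∀ ℓ, Good M p ℓ → ∀ (n : ℕ) {f : F} {c : K.A →+ ZMod (p ^ n)},
      K.R n f c → K.R n (heckeF ℓ f) (c.comp (pull e (tauN M ℓ))))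
    (diam : ∀ (u : (ZMod M)ˣ) (n : ℕ) {f : F} {c : K.A →+ ZMod (p ^ n)},
      K.R n f c → K.R n (diaF u f) (c.comp (pull e (dia1 M u))))
    (hecke_gal : ∀ ℓ, Good M p ℓ → ∀ (σ : GQ) (n : ℕ) {f : F} {c : K.A →+ ZMod (p ^ n)},
      K.R n f c → heckeF ℓ (gal σ f) = gal σ (heckeF ℓ f))
    (dia_gal : ∀ (u : (ZMod M)ˣ) (σ : GQ) (n : ℕ) {f : F} {c : K.A →+ ZMod (p ^ n)},
      K.R n f c → diaF u (gal σ f) = gal σ (diaF u f))
    (unr : ∀ q : ℕ, q.Prime → ¬ q ∣ M → q ≠ p →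
      ∀ P : ValuationSubring (AlgebraicClosure ℚ), P.LiesOverPrime q →
        ∀ σ ∈ P.inertiaSubgroupIn ℚ, ∀ (n : ℕ) {f : F} {c : K.A →+ ZMod (p ^ n)},
          K.R n f c → ∃ g : F, gal σ f = f * g ^ (p ^ n))
    (es : ∀ ℓ : ℕ, Good M p ℓ → ∀ u : (ZMod M)ˣ, (u : ZMod M) = (ℓ : ZMod M) →
      ∀ B : ValuationSubring (AlgebraicClosure ℚ), B.LiesOverPrime ℓ →
        ∀ σ : GQ, B.IsFrobeniusAt σ ℓ → ∀ (n : ℕ) {f : F} {c : K.A →+ ZMod (p ^ n)},
          K.R n f c → ∃ g : F,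
            gal σ (gal σ f) * diaF u f ^ ℓ = heckeF ℓ (gal σ f) * g ^ (p ^ n)) :
    Nonempty (ES1Data M p (Top M) (Dop M)) := by
  refine nonempty_es1Data (Top M) (Dop M) K heckeF diaF (fun ℓ => pull e (tauN M ℓ))
    (fun u => pull e (dia1 M u)) hecke diam hecke_gal dia_gal unr es (periodE e) ?_ ?_ ?_ ?_
    ?_ ?_ ?_ ?_ ?_
  · intro f a b
    rw [periodE_apply, periodE_apply, periodE_apply, map_add, period1_add]
  · intro f g h
    apply period1_injective M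
    funext x
    have := congrFun h (e.symm x)
    rwa [periodE_apply, periodE_apply, AddEquiv.apply_symm_apply] at this
  · intro ℓ hℓ f x
    rw [periodE_apply, periodE_apply, pull_apply]
    exact period1_Top M hℓ.1 hℓ.2.1 f (e x)
  · intro u f x
    rw [periodE_apply, periodE_apply, pull_apply]
    exact period1_Dop M u f (e x)
  · intro ℓ ℓ' hℓ hℓ' f
    exact Top_comm M hℓ.1 hℓ.2.1 hℓ'.1 hℓ'.2.1 f
  · intro ℓ u hℓ f
    exact Top_Dop M hℓ.1 hℓ.2.1 u f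
  · intro u v f
    exact Dop_mul M u v f
  · intro f
    exact Dop_one M f
  · intro f
    exact Dop_neg_one M f

end Seam

end Fermat.Agent.S48.Betti1
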