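/-
S48 / G1, BETTI SIDE, row B.2 (helper165): THE MULTIPLICATIVE HECKE OPERATOR AND THE DIAMOND
OPERATORS ON HOLOMORPHIC FUNCTIONS, LEVEL `Γ₁(M)`.

The `Γ₁(M)` twin of `S30/KummerHecke.lean` (`compRep`, `heckeHol`, `compSL_heckeHol`) on top of
helper191's representatives `Betti1.rep1` (`Betti1/Gamma1Adj.lean`), helper79's coset system
`Gamma1Coset.sys1` and helper162's generic multiplier law `Glue1.compSL_prod_comp`.

* `compGL g hg`            : precomposition with `g ∈ GL₂(ℝ)`, `det g > 0`, an algebra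
                             endomorphism of `HolH` (generic);
* `compSL_compGL`          : `r * a = b * r'`  ⟹  `(H ∘ r) ∘ a = (H ∘ b) ∘ r'` (generic);
* `compRep1 M hℓ hℓM x`    : `H ↦ H ∘ (rep1 x • ·)`, a monoid endomorphism of `HolH`;
* `compSL_compRep1`        : `compSL γ (compRep1 x H) = compRep1 (perm γ x) (compSL (coc γ x) H)`
                             (the hypothesis `hcmp` of `Glue1.compSL_prod_comp`);
* `heckeHol1 M hℓ hℓM`     : `H ↦ ∏ₓ compRep1 x H`;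
* `heckeHol1_apply`, `heckeHol1_apply_split`, `heckeHol1_apply_range` : pointwise formulas,
                             `heckeHol1 H τ = (H ∘ σ_ℓ) (ℓ τ) * ∏_{j < ℓ} H ((τ + j) / ℓ)`;
* `compSL_heckeHol1`       : MULTIPLIER LEMMA. If `H` is an eigenfunction of all of `Γ₁(M)` then
                             `compSL γ (heckeHol1 H) = (∏ₓ mult (coc γ x) H) • heckeHol1 H`;
* `isEig_heckeHol1`, `mult_heckeHol1`, `heckeHol1_ne_zero`;
* diamond twin: `compSL_compSL_conj1`, `isEig_compSL_conj1_iff`, `isEig_compSL_of_gamma0`,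
  `mult_compSL_conj1` (`s ∈ Γ₀(M)`, `conj1 M s hs γ = s γ s⁻¹`);
* wiring with `Glue1.Model` (any analytic Kummer model of level `Γ₁(M)`):
  `krel_tau1` (operator pair `(T, tau1)`), `krel_diaS`, `krel_dia1` (operator pair
  `(D, dia1 d)`): the inputs `hecke` / `diam` of `Betti1/Exits.nonempty_es1Data_of_kummer`
  for `K := Model.pairing`, up to `Exits.tauN_eq`.
-/
import Mathlib
import Fermat.Agent.S48.Betti1.Gamma1Adj
import Fermat.Agent.S48.G1.Glue1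

set_option autoImplicit false

noncomputable section

open scoped MatrixGroups Manifold
open Matrix.SpecialLinearGroup UpperHalfPlane ModularForm CongruenceSubgroup
open Fermat.Agent.S24.HolH
open Fermat.Agent.S30.KummerChar

namespace Fermat.Agent.S48.Betti1

open Fermat.Agent.S48.G1.Gamma1Coset Fermat.Agent.S48.Hecke1
open Fermat.Agent.S48.G1.Glue1

/-! ### Precomposition with an element of `GL₂(ℝ)` of positive determinant -/

/-- Precomposition with the action of `g ∈ GL₂(ℝ)`, `det g > 0`, as an algebra endomorphism of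
the holomorphic functions on `ℍ`. -/
def compGL (g : GL (Fin 2) ℝ) (hg : 0 < g.val.det) : HolH →ₐ[ℂ] HolH where
  toFun f := ⟨fun τ => (f : ℍ → ℂ) (g • τ), by
    have hg' : (0 : ℝ) < g.det.val := by
      rw [Matrix.GeneralLinearGroup.val_det_apply]
      exact hg
    exact (f.2 : MDifferentiable 𝓘(ℂ) 𝓘(ℂ) (f : ℍ → ℂ)).comp (mdifferentiable_smul hg')⟩
  map_one' := rfl
  map_mul' _ _ := rfl
  map_zero' := rfl
  map_add' _ _ := rfl
  commutes' _ := rfl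

@[simp]
theorem compGL_apply (g : GL (Fin 2) ℝ) (hg : 0 < g.val.det) (f : HolH) (τ : ℍ) :
    (compGL g hg f : ℍ → ℂ) τ = (f : ℍ → ℂ) (g • τ) := rfl

theorem compGL_injective (g : GL (Fin 2) ℝ) (hg : 0 < g.val.det) :
    Function.Injective (compGL g hg) := by
  intro f₁ f₂ h
  apply Subtype.ext
  funext τ
  have h1 := congrArg (fun F : HolH => (F : ℍ → ℂ) (g⁻¹ • τ)) h
  simp only [compGL_apply, smul_inv_smul] at h1
  exact h1

theorem compGL_ne_zero (g : GL (Fin 2) ℝ) (hg : 0 < g.val.det) {f : HolH} (hf : f ≠ 0) :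
    compGL g hg f ≠ 0 :=
  (map_ne_zero_iff _ (compGL_injective g hg)).mpr hf

/-- The coset identity `r * a = b * r'` on the level of holomorphic functions:
`(H ∘ r) ∘ a = (H ∘ b) ∘ r'`. -/
theorem compSL_compGL {r r' : GL (Fin 2) ℝ} (hr : 0 < r.val.det) (hr' : 0 < r'.val.det)
    {a b : SL(2, ℤ)} (h : r * mapGL ℝ a = mapGL ℝ b * r') (H : HolH) :
    compSL a (compGL r hr H) = compGL r' hr' (compSL b H) := by
  apply Subtype.ext
  funext τ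
  show (H : ℍ → ℂ) (r • (a • τ)) = (H : ℍ → ℂ) (b • (r' • τ))
  rw [ModularGroup.sl_moeb, ModularGroup.sl_moeb, ← mul_smul, ← mul_smul]
  exact congrArg (fun g : GL (Fin 2) ℝ => (H : ℍ → ℂ) (g • τ)) h

/-- `H ∘ (mapGL s * r) = (H ∘ s) ∘ r`. -/
theorem compGL_mapGL_mul (s : SL(2, ℤ)) {r : GL (Fin 2) ℝ} (hr : 0 < r.val.det)
    (hsr : 0 < (mapGL ℝ s * r).val.det) (H : HolH) :
    compGL (mapGL ℝ s * r) hsr H = compGL r hr (compSL s H) := by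
  apply Subtype.ext
  funext τ
  show (H : ℍ → ℂ) ((mapGL ℝ s * r) • τ) = (H : ℍ → ℂ) (s • (r • τ))
  rw [ModularGroup.sl_moeb, ← mul_smul]
  rfl

/-! ### The multiplicative Hecke operator `T_ℓ` on `HolH`, level `Γ₁(M)` -/

section Hecke

variable (M : ℕ) [NeZero M] {ℓ : ℕ} (hℓ : ℓ.Prime) (hℓM : ¬ ℓ ∣ M)

/-- Precomposition with the Hecke representative `rep1 x` of `T_ℓ` on `Γ₁(M)`
(`[[1, j], [0, ℓ]]` at `j`, `σ_ℓ [[ℓ, 0], [0, 1]]` at `∞`). -/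
def compRep1 (x : OnePoint (ZMod ℓ)) : HolH →* HolH :=
  (compGL (rep1 M hℓ hℓM x) (rep1_det_pos M hℓ hℓM x) : HolH →* HolH)

@[simp]
theorem compRep1_apply (x : OnePoint (ZMod ℓ)) (H : HolH) (τ : ℍ) :
    (compRep1 M hℓ hℓM x H : ℍ → ℂ) τ = (H : ℍ → ℂ) (rep1 M hℓ hℓM x • τ) := rfl

theorem compRep1_eq_compGL (x : OnePoint (ZMod ℓ)) (H : HolH) :
    compRep1 M hℓ hℓM x H = compGL (rep1 M hℓ hℓM x) (rep1_det_pos M hℓ hℓM x) H := rfl

/-- `compRep1 x` is `ℂ`-linear. -/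
theorem compRep1_const_mul (x : OnePoint (ZMod ℓ)) (c : ℂ) (H : HolH) :
    compRep1 M hℓ hℓM x (algebraMap ℂ HolH c * H) =
      algebraMap ℂ HolH c * compRep1 M hℓ hℓM x H := rfl

theorem compRep1_ne_zero (x : OnePoint (ZMod ℓ)) {H : HolH} (hH : H ≠ 0) :
    compRep1 M hℓ hℓM x H ≠ 0 :=
  compGL_ne_zero (rep1 M hℓ hℓM x) (rep1_det_pos M hℓ hℓM x) hH

/-- At the finite points the representative is `[[1, j], [0, ℓ]]`. -/
theorem compRep1_coe_apply (j : ZMod ℓ) (H : HolH) (τ : ℍ) :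
    (compRep1 M hℓ hℓM (j : OnePoint (ZMod ℓ)) H : ℍ → ℂ) τ =
      (H : ℍ → ℂ) (heckeMatrix ℓ j.val • τ) := by
  rw [compRep1_apply, rep1_coe]

/-- At `∞` the representative is `σ_ℓ [[ℓ, 0], [0, 1]]`: `H ↦ (H ∘ σ_ℓ) (ℓ τ)`. -/
theorem compRep1_infty_apply (H : HolH) (τ : ℍ) :
    (compRep1 M hℓ hℓM OnePoint.infty H : ℍ → ℂ) τ =
      (compSL (diamondRep M (primeUnit hℓ hℓM)) H : ℍ → ℂ) (heckeDiagMatrix ℓ • τ) := by
  rw [compRep1_apply, rep1_infty, mul_smul, compSL_apply, ModularGroup.sl_moeb]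
  rfl

/-- **The coset identity on `HolH`**: the hypothesis `hcmp` of `Glue1.compSL_prod_comp`. -/
theorem compSL_compRep1 (γ : Gamma1 M) (x : OnePoint (ZMod ℓ)) (H : HolH) :
    compSL (γ : SL(2, ℤ)) (compRep1 M hℓ hℓM x H) =
      compRep1 M hℓ hℓM ((sys1 M hℓ hℓM).perm γ x)
        (compSL (((sys1 M hℓ hℓM).coc γ x : Gamma1 M) : SL(2, ℤ)) H) :=
  compSL_compGL (rep1_det_pos M hℓ hℓM x) (rep1_det_pos M hℓ hℓM _) (rep1_spec M hℓ hℓM γ x) H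

/-- **The multiplicative Hecke operator `T_ℓ` on holomorphic functions**, level `Γ₁(M)`:
`H ↦ (τ ↦ ∏ₓ H (rep1 x • τ))`. -/
def heckeHol1 : HolH →* HolH :=
  haveI : NeZero ℓ := ⟨hℓ.ne_zero⟩
  ∏ x : OnePoint (ZMod ℓ), compRep1 M hℓ hℓM x

theorem heckeHol1_eq_prod [NeZero ℓ] (H : HolH) :
    heckeHol1 M hℓ hℓM H = ∏ x : OnePoint (ZMod ℓ), compRep1 M hℓ hℓM x H :=
  MonoidHom.finsetProd_apply _ _ _

theorem heckeHol1_apply [NeZero ℓ] (H : HolH) (τ : ℍ) :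
    (heckeHol1 M hℓ hℓM H : ℍ → ℂ) τ =
      ∏ x : OnePoint (ZMod ℓ), (H : ℍ → ℂ) (rep1 M hℓ hℓM x • τ) := by
  rw [heckeHol1_eq_prod, SubmonoidClass.coe_finsetProd, Finset.prod_apply]
  rfl

/-- `heckeHol1 H τ = (H ∘ σ_ℓ) (ℓ τ) * ∏_{j ∈ 𝔽_ℓ} H ((τ + j) / ℓ)`. -/
theorem heckeHol1_apply_split [NeZero ℓ] (H : HolH) (τ : ℍ) :
    (heckeHol1 M hℓ hℓM H : ℍ → ℂ) τ =
      (compSL (diamondRep M (primeUnit hℓ hℓM)) H : ℍ → ℂ) (heckeDiagMatrix ℓ • τ) *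
        ∏ j : ZMod ℓ, (H : ℍ → ℂ) (heckeMatrix ℓ j.val • τ) := by
  rw [heckeHol1_apply]
  refine Eq.trans
    (Fintype.prod_option (fun x : OnePoint (ZMod ℓ) => (H : ℍ → ℂ) (rep1 M hℓ hℓM x • τ))) ?_
  congr 1
  · exact compRep1_infty_apply M hℓ hℓM H τ
  · refine Finset.prod_congr rfl fun j _ => ?_
    exact compRep1_coe_apply M hℓ hℓM j H τ

/-- `heckeHol1 H τ = (H ∘ σ_ℓ) (ℓ τ) * ∏_{j < ℓ} H ((τ + j) / ℓ)`. -/
theorem heckeHol1_apply_range [NeZero ℓ] (H : HolH) (τ : ℍ) :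
    (heckeHol1 M hℓ hℓM H : ℍ → ℂ) τ =
      (compSL (diamondRep M (primeUnit hℓ hℓM)) H : ℍ → ℂ) (heckeDiagMatrix ℓ • τ) *
        ∏ j ∈ Finset.range ℓ, (H : ℍ → ℂ) (heckeMatrix ℓ j • τ) := by
  rw [heckeHol1_apply_split]
  congr 1
  obtain ⟨n, rfl⟩ : ∃ n, ℓ = n + 1 := ⟨ℓ - 1, by have := NeZero.pos ℓ; omega⟩
  exact Fin.prod_univ_eq_prod_range (fun j => (H : ℍ → ℂ) (heckeMatrix (n + 1) j • τ)) (n + 1)

theorem heckeHol1_ne_zero {H : HolH} (hH : H ≠ 0) : heckeHol1 M hℓ hℓM H ≠ 0 := by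
  have : NeZero ℓ := ⟨hℓ.ne_zero⟩
  rw [heckeHol1_eq_prod]
  exact Finset.prod_ne_zero_iff.mpr fun x _ => compRep1_ne_zero M hℓ hℓM x hH

/-- **MULTIPLIER LEMMA**, level `Γ₁(M)`: if `H` is an eigenfunction of all of `Γ₁(M)`, then so is
`heckeHol1 H`, with multiplier the transfer `∏ₓ mult (coc γ x) H`. -/
theorem compSL_heckeHol1 [NeZero ℓ] {H : HolH} (heig : ∀ γ ∈ Gamma1 M, IsEig γ H)
    (γ : Gamma1 M) :
    compSL (γ : SL(2, ℤ)) (heckeHol1 M hℓ hℓM H) =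
      algebraMap ℂ HolH
          (∏ x : OnePoint (ZMod ℓ),
            mult (((sys1 M hℓ hℓM).coc γ x : Gamma1 M) : SL(2, ℤ)) H) *
        heckeHol1 M hℓ hℓM H := by
  rw [heckeHol1_eq_prod]
  exact compSL_prod_comp (compRep1 M hℓ hℓM) (sys1 M hℓ hℓM).toCocSys.permEquiv
    (sys1 M hℓ hℓM).coc (fun γ x H => compSL_compRep1 M hℓ hℓM γ x H)
    (fun x c H => compRep1_const_mul M hℓ hℓM x c H) heig γ

/-- `heckeHol1 H` is an eigenfunction of all of `Γ₁(M)` as soon as `H` is. -/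
theorem isEig_heckeHol1 {H : HolH} (heig : ∀ γ ∈ Gamma1 M, IsEig γ H) :
    ∀ γ ∈ Gamma1 M, IsEig γ (heckeHol1 M hℓ hℓM H) := by
  have : NeZero ℓ := ⟨hℓ.ne_zero⟩
  intro γ hγ
  exact ⟨_, compSL_heckeHol1 M hℓ hℓM heig ⟨γ, hγ⟩⟩

/-- The multiplier of `heckeHol1 H` is the transfer of the multiplier of `H`. -/
theorem mult_heckeHol1 [NeZero ℓ] {H : HolH} (hH : H ≠ 0)
    (heig : ∀ γ ∈ Gamma1 M, IsEig γ H) (γ : Gamma1 M) :
    mult (γ : SL(2, ℤ)) (heckeHol1 M hℓ hℓM H) =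
      ∏ x : OnePoint (ZMod ℓ), mult (((sys1 M hℓ hℓM).coc γ x : Gamma1 M) : SL(2, ℤ)) H :=
  mult_eq_of_eq (heckeHol1_ne_zero M hℓ hℓM hH) (compSL_heckeHol1 M hℓ hℓM heig γ)

end Hecke

/-! ### The diamond operators on `HolH`: composition with `s ∈ Γ₀(M)` -/

section Diamond

variable (M : ℕ) [NeZero M]

/-- `(H ∘ s) ∘ γ = (H ∘ s γ s⁻¹) ∘ s`. -/
theorem compSL_compSL_conj1 (s : SL(2, ℤ)) (hs : s ∈ Gamma0 M) (γ : Gamma1 M) (H : HolH) :
    compSL (γ : SL(2, ℤ)) (compSL s H) =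
      compSL s (compSL ((conj1 M s hs γ : Gamma1 M) : SL(2, ℤ)) H) := by
  rw [← compSL_mul, ← compSL_mul, conj1_coe, inv_mul_cancel_right]

/-- `H ∘ s` is an eigenfunction of `γ` iff `H` is one of `s γ s⁻¹`. -/
theorem isEig_compSL_conj1_iff (s : SL(2, ℤ)) (hs : s ∈ Gamma0 M) (γ : Gamma1 M) (H : HolH) :
    IsEig ((conj1 M s hs γ : Gamma1 M) : SL(2, ℤ)) H ↔ IsEig (γ : SL(2, ℤ)) (compSL s H) := by
  rw [conj1_coe]
  exact isEig_conj_iff s γ H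

/-- If `H` is an eigenfunction of all of `Γ₁(M)`, so is `H ∘ s` (`s ∈ Γ₀(M)`). -/
theorem isEig_compSL_of_gamma0 (s : SL(2, ℤ)) (hs : s ∈ Gamma0 M) {H : HolH}
    (heig : ∀ γ ∈ Gamma1 M, IsEig γ H) : ∀ γ ∈ Gamma1 M, IsEig γ (compSL s H) := by
  intro γ hγ
  exact (isEig_compSL_conj1_iff M s hs ⟨γ, hγ⟩ H).mp (heig _ (conj1 M s hs ⟨γ, hγ⟩).2)

/-- The multiplier of `H ∘ s` at `γ` is the multiplier of `H` at `s γ s⁻¹`. -/
theorem mult_compSL_conj1 (s : SL(2, ℤ)) (hs : s ∈ Gamma0 M) (γ : Gamma1 M) {H : HolH}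
    (hH : H ≠ 0) (heig : ∀ γ ∈ Gamma1 M, IsEig γ H) :
    mult (γ : SL(2, ℤ)) (compSL s H) = mult ((conj1 M s hs γ : Gamma1 M) : SL(2, ℤ)) H := by
  have h := heig _ (conj1 M s hs γ).2
  rw [conj1_coe] at h ⊢
  exact mult_conj s γ hH h

end Diamond

/-! ### Wiring with the generic Kummer glue -/

section Wiring

open Fermat.Agent.S30

variable (M : ℕ) [NeZero M] {F : Type} [Field F] {gal : GQ → F ≃+* F}
  (K : Model (Gamma1 M) F gal) {m : ℕ} [NeZero m]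

/-- **Operator pair `(T, τ_ℓ)`** for an analytic Kummer model of level `Γ₁(M)`: if `T` is a
multiplicative operator on `F`, preserving `m ∣ div`, which on good functions is computed by
`heckeHol1` (`ι a₁ = T (ι a) * ι b₁ → θ a₁ = heckeHol1 (θ a) * θ b₁`), then
`KRel m f c → KRel m (T f) (c ∘ τ_ℓ)`. -/
theorem krel_tau1 {ℓ : ℕ} (hℓ : ℓ.Prime) (hℓM : ¬ ℓ ∣ M) (T : F → F) (hT1 : T 1 = 1)
    (hTmul : ∀ f g : F, T (f * g) = T f * T g)
    (hdiv : ∀ f : F, f ≠ 0 → K.Div m f → K.Div m (T f))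
    (hθ : ∀ a a₁ b₁ : K.A0, K.ι a₁ = T (K.ι a) * K.ι b₁ →
      K.θ a₁ = heckeHol1 M hℓ hℓM (K.θ a) * K.θ b₁)
    {f : F} {c : AG (Gamma1 M) →+ ZMod m} (h : K.KRel m f c) :
    K.KRel m (T f) (c.comp (tau1 M hℓ hℓM)) := by
  have : NeZero ℓ := ⟨hℓ.ne_zero⟩
  exact Model.krel_transfer (sys1 M hℓ hℓM).coc (tau1 M hℓ hℓM)
    (fun γ => tau1_proj M hℓ hℓM γ) T hdiv
    (fun f a b H ha hb e r =>
      Model.exists_isRoot_hecke (sys1 M hℓ hℓM).coc T hT1 hTmul (heckeHol1 M hℓ hℓM)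
        (fun H heig γ => compSL_heckeHol1 M hℓ hℓM heig γ) hθ f a b H ha hb e r) h

/-- **Operator pair `(D, δ_s)`**, `s ∈ Γ₀(M)`: if `D` is a multiplicative operator on `F`,
preserving `m ∣ div`, which on good functions is composition with `s`, then
`KRel m f c → KRel m (D f) (c ∘ diaS s)`. -/
theorem krel_diaS (s : SL(2, ℤ)) (hs : s ∈ Gamma0 M) (D : F → F)
    (hDmul : ∀ f g : F, D (f * g) = D f * D g)
    (D0 : K.A0 → K.A0) (hDι : ∀ x : K.A0, K.ι (D0 x) = D (K.ι x))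
    (hDθ : ∀ x : K.A0, K.θ (D0 x) = compSL s (K.θ x))
    (hdiv : ∀ f : F, f ≠ 0 → K.Div m f → K.Div m (D f))
    {f : F} {c : AG (Gamma1 M) →+ ZMod m} (h : K.KRel m f c) :
    K.KRel m (D f) (c.comp (diaS M s hs)) :=
  Model.krel_conj s (conj1 M s hs) (fun γ => conj1_coe M s hs γ) (diaS M s hs)
    (fun γ => diaS_proj M s hs γ) D hDmul D0 hDι hDθ hdiv h

/-- **Operator pair `(D, δ_d)`**, `d ∈ (ℤ/M)ˣ`: the case `s = Hecke1.diamondRep M d`. -/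
theorem krel_dia1 (d : (ZMod M)ˣ) (D : F → F)
    (hDmul : ∀ f g : F, D (f * g) = D f * D g)
    (D0 : K.A0 → K.A0) (hDι : ∀ x : K.A0, K.ι (D0 x) = D (K.ι x))
    (hDθ : ∀ x : K.A0, K.θ (D0 x) = compSL (diamondRep M d) (K.θ x))
    (hdiv : ∀ f : F, f ≠ 0 → K.Div m f → K.Div m (D f))
    {f : F} {c : AG (Gamma1 M) →+ ZMod m} (h : K.KRel m f c) :
    K.KRel m (D f) (c.comp (dia1 M d)) :=
  krel_diaS M K (diamondRep M d) (diamondRep_mem M d) D hDmul D0 hDι hDθ hdiv h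

end Wiring

end Fermat.Agent.S48.Betti1
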